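import Fermat.Agent.A2.H673.LocFactA

/-!
# Cell A2, route S, piece LOCFACT (helper673), part B: the horizontal root

`exists_horizontal_root`: `O` noetherian domain, `f₀ ∈ K^×` locally `unit × m`-th power at every
horizontal height-one prime (`w ∉ P`), LP (`LPData`) at every horizontal prime where `f₀` is not a
unit.  Then there is `D ∈ K^×` such that `f₀ / D ^ m` is a unit at every horizontal height-one
prime.
-/

set_option autoImplicit false
set_option linter.unusedSectionVars false
set_option linter.style.haveILetI false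

namespace Fermat.Agent.A2.H673

open Fermat.Agent.A2.H849

variable {O : Type*} [CommRing O] [IsDomain O] [IsNoetherianRing O]
variable {K : Type*} [Field K] [Algebra O K] [IsFractionRing O K]

/-- The horizontal height-one primes at which `f` is not a unit. -/
def BadSet (w : O) (f : K) : Set (Ideal O) :=
  {P | ∃ V : ValuationSubring K, IsLocDVR V P ∧ w ∉ P ∧ ¬ UnitAt V f}

theorem badSet_finite (w : O) {f : K} (hf : f ≠ 0) : (BadSet w f).Finite := by
  obtain ⟨a, b, hb, rfl⟩ := IsFractionRing.div_surjective (A := O) f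
  have hb0 : b ≠ 0 := nonZeroDivisors.ne_zero hb
  have ha0 : a ≠ 0 := by
    rintro rfl
    apply hf
    rw [map_zero, zero_div]
  have hab : a * b ≠ 0 := mul_ne_zero ha0 hb0
  refine (Ideal.finite_minimalPrimes_of_isNoetherianRing O (Ideal.span {a * b})).subset ?_
  rintro P ⟨V, hV, -, hbad⟩
  have hmem : a * b ∈ P := by
    by_contra hcon
    haveI := hV.prime
    have ha : a ∉ P := fun h => hcon (Ideal.mul_mem_right _ _ h)
    have hb' : b ∉ P := fun h => hcon (Ideal.mul_mem_left _ _ h)
    exact hbad ((locDVR_unitAt_of_notMem hV ha).div (locDVR_unitAt_of_notMem hV hb'))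
  refine ⟨⟨hV.prime, ?_⟩, ?_⟩
  · rw [Ideal.span_le]
    intro z hz
    rw [Set.mem_singleton_iff] at hz
    rw [hz]; exact hmem
  · rintro Q ⟨hQ, hQab⟩ hQP
    have hQ0 : Q ≠ ⊥ := by
      intro h0
      have : a * b ∈ Q := hQab (Ideal.subset_span rfl)
      rw [h0, Ideal.mem_bot] at this
      exact hab this
    exact (hV.height_one Q hQ hQ0 hQP).ge

/-- auxiliary induction for `exists_horizontal_root`. -/
theorem exists_horizontal_root_aux (w : O) (hw0 : w ≠ 0) (m : ℕ) {f₀ : K}
    (hLP : ∀ P ∈ BadSet w f₀, ∃ d, LPData w P d) :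
    ∀ (n : ℕ) (f : K), f ≠ 0 → (BadSet w f).ncard ≤ n → BadSet w f ⊆ BadSet w f₀ →
      (∀ (V : ValuationSubring K) (P : Ideal O), IsLocDVR V P → w ∉ P →
        ∃ h u : K, h ≠ 0 ∧ UnitAt V u ∧ f = u * h ^ m) →
      ∃ D : K, D ≠ 0 ∧ ∀ (V : ValuationSubring K) (P : Ideal O), IsLocDVR V P → w ∉ P →
        UnitAt V (f / D ^ m) := by
  intro n
  induction n with
  | zero =>
    intro f hf hcard _ _
    have hemp : BadSet w f = ∅ := by
      have := (Set.ncard_eq_zero (badSet_finite w hf)).mp (Nat.le_zero.mp hcard)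
      exact this
    refine ⟨1, one_ne_zero, fun V P hV hw => ?_⟩
    rw [one_pow, div_one]
    by_contra hcon
    have : P ∈ BadSet w f := ⟨V, hV, hw, hcon⟩
    rw [hemp] at this
    exact this
  | succ n ih =>
    intro f hf hcard hsub hdiv
    by_cases hemp : BadSet w f = ∅
    · refine ⟨1, one_ne_zero, fun V P hV hw => ?_⟩
      rw [one_pow, div_one]
      by_contra hcon
      have : P ∈ BadSet w f := ⟨V, hV, hw, hcon⟩
      rw [hemp] at this
      exact this
    · obtain ⟨P, hP⟩ := Set.nonempty_iff_ne_empty.mpr hemp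
      obtain ⟨V, hV, hw, hbad⟩ := hP
      obtain ⟨d, hd⟩ := hLP P (hsub ⟨V, hV, hw, hbad⟩)
      obtain ⟨h, u, hh0, hu, hfu⟩ := hdiv V P hV hw
      obtain ⟨k, hk⟩ := hd.exists_zpow hw0 hV hw hh0
      have hd0 : algebraMap O K d ≠ 0 := algebraMap_ne_zero_of_ne_zero (hd.ne_zero hw0 hV.ne_bot)
      set D₁ : K := algebraMap O K d ^ k with hD₁
      have hD₁0 : D₁ ≠ 0 := zpow_ne_zero k hd0
      set f' : K := f / D₁ ^ m with hf'
      have hf'0 : f' ≠ 0 := div_ne_zero hf (pow_ne_zero m hD₁0)
      have hf'V : UnitAt V f' := by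
        have : f' = u * (h / D₁) ^ m := by
          rw [hf', hfu, div_pow, mul_div_assoc]
        rw [this]
        exact hu.mul (hk.pow m)
      -- the bad set shrinks
      have hsub' : BadSet w f' ⊆ BadSet w f := by
        rintro P' ⟨V', hV', hw', hbad'⟩
        have hne : P' ≠ P := by
          rintro rfl
          have := locDVR_unique hV' hV
          rw [this] at hbad'
          exact hbad' hf'V
        have hDu : UnitAt V' D₁ := (hd.unitAt_of_ne hV.prime hV.ne_bot hV' hw' hne).zpow k
        refine ⟨V', hV', hw', fun hfV' => hbad' ?_⟩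
        exact hfV'.div (hDu.pow m)
      have hPnot : P ∉ BadSet w f' := by
        rintro ⟨V', hV', -, hbad'⟩
        have := locDVR_unique hV' hV
        rw [this] at hbad'
        exact hbad' hf'V
      have hss : BadSet w f' ⊂ BadSet w f :=
        ⟨hsub', fun hcon => hPnot (hcon ⟨V, hV, hw, hbad⟩)⟩
      have hlt : (BadSet w f').ncard < (BadSet w f).ncard :=
        Set.ncard_lt_ncard hss (badSet_finite w hf)
      have hcard' : (BadSet w f').ncard ≤ n := by omega
      have hdiv' : ∀ (V : ValuationSubring K) (P : Ideal O), IsLocDVR V P → w ∉ P →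
          ∃ h u : K, h ≠ 0 ∧ UnitAt V u ∧ f' = u * h ^ m := by
        intro V'' P'' hV'' hw''
        obtain ⟨h'', u'', hh'', hu'', e''⟩ := hdiv V'' P'' hV'' hw''
        refine ⟨h'' / D₁, u'', div_ne_zero hh'' hD₁0, hu'', ?_⟩
        rw [hf', e'', div_pow, mul_div_assoc]
      obtain ⟨D', hD'0, hD'⟩ := ih f' hf'0 hcard' (hsub'.trans hsub) hdiv'
      refine ⟨D' * D₁, mul_ne_zero hD'0 hD₁0, fun V'' P'' hV'' hw'' => ?_⟩
      have : f / (D' * D₁) ^ m = f' / D' ^ m := by
        rw [hf', mul_pow, div_div, mul_comm]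
      rw [this]
      exact hD' V'' P'' hV'' hw''

/-- **The horizontal root.**  If `f₀ ≠ 0` is locally `unit × m`-th power at every horizontal
height-one prime of `O` and local principality holds at every horizontal prime where `f₀` is not
a unit, then `f₀ / D ^ m` is a unit at every horizontal height-one prime, for some `D ≠ 0`. -/
theorem exists_horizontal_root (w : O) (hw0 : w ≠ 0) (m : ℕ) {f₀ : K} (hf₀ : f₀ ≠ 0)
    (hLP : ∀ P ∈ BadSet w f₀, ∃ d, LPData w P d)
    (hdiv : ∀ (V : ValuationSubring K) (P : Ideal O), IsLocDVR V P → w ∉ P →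
      ∃ h u : K, h ≠ 0 ∧ UnitAt V u ∧ f₀ = u * h ^ m) :
    ∃ D : K, D ≠ 0 ∧ ∀ (V : ValuationSubring K) (P : Ideal O), IsLocDVR V P → w ∉ P →
      UnitAt V (f₀ / D ^ m) :=
  exists_horizontal_root_aux w hw0 m hLP _ f₀ hf₀ le_rfl (fun _ h => h) hdiv

end Fermat.Agent.A2.H673
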