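import Fermat.Agent.A2.H673.NodeLocal

/-!
# Cell A2, piece NODE-abs, part 3: finite thickness and UNCONDITIONAL local principality (helper673)

Setting as in `NodeLocal`: `φ : R →+* O`, `ϖ : R`, `w = φ ϖ`, `x y : O`.

* `TrueNode φ ϖ x y`: the special fibre `O / w` is a genuine crossing of two branches:
  `(x̄) ∩ (ȳ) = 0`, `ann x̄ = (ȳ)`, `ann ȳ = (x̄)`  (elementwise, only depends on `x, y` mod `w`).
* `TrueNode.regular_mod`: if `w^(n+1) ∣ S T`, then `S` is a nonzerodivisor modulo `(T, w^k)` for all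
  `k ≤ n + 1`.
* `dvd_section_of_bad` (**finite thickness**): let `s` be a section whose kernel `P` is locally
  principal at `P` (`t • P ≤ (d)` with `d ∈ P`; this is "`O_P` is a discrete valuation ring", true
  for a normal noetherian `O`).  If `s` is bad at stage `n` (`ϖ^(n+1) ∣ s S`, `ϖ^(n+1) ∣ s T` for
  coordinates with `S T = φ c + w^(n+1) h`), then `ϖ^(n+1) ∣ s t`.  Hence for `n ≥ v(s t)` the
  section is good for `S` or for `T`.
* `exists_local_generator` (**LP, unconditional**): under these hypotheses there are `d' ∈ P` and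
  a constant `a ≠ 0` dividing a power of `ϖ` with `φ a • P ≤ (d') ≤ P`; i.e. `P` becomes
  principal, generated by `d'`, after inverting `ϖ`.
-/

set_option autoImplicit false

namespace Fermat.Agent.A2.H673

section Thick

variable {R O : Type*} [CommRing R] [CommRing O] (φ : R →+* O) (ϖ : R)

/-- The special fibre is a genuine crossing of the two branches `x = 0` and `y = 0`. -/
structure TrueNode (x y : O) : Prop where
  /-- `(x̄) ∩ (ȳ) = 0` in `O / ϖ` -/
  inter : ∀ a b : O, φ ϖ ∣ x * a - y * b → φ ϖ ∣ x * a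
  /-- `ann x̄ = (ȳ)` in `O / ϖ` -/
  annX : ∀ g : O, φ ϖ ∣ x * g → ∃ g₁ g₂ : O, g = y * g₁ + φ ϖ * g₂
  /-- `ann ȳ = (x̄)` in `O / ϖ` -/
  annY : ∀ g : O, φ ϖ ∣ y * g → ∃ g₁ g₂ : O, g = x * g₁ + φ ϖ * g₂

variable {φ ϖ}

/-- symmetry of `TrueNode`. -/
theorem TrueNode.symm {x y : O} (h : TrueNode φ ϖ x y) : TrueNode φ ϖ y x where
  inter a b hab := by
    have h1 : φ ϖ ∣ x * b - y * a := by
      have e : x * b - y * a = -(y * a - x * b) := by ring
      rw [e]; exact (dvd_neg).mpr hab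
    have h2 := h.inter b a h1
    have e : y * a = x * b - (x * b - y * a) := by ring
    rw [e]
    exact dvd_sub h2 h1
  annX := h.annY
  annY := h.annX

/-- `TrueNode` only depends on `x, y` modulo `ϖ`. -/
theorem TrueNode.congr {x y x' y' : O} (h : TrueNode φ ϖ x y)
    (hx : φ ϖ ∣ x' - x) (hy : φ ϖ ∣ y' - y) : TrueNode φ ϖ x' y' := by
  obtain ⟨dx, hdx⟩ := hx
  obtain ⟨dy, hdy⟩ := hy
  have ex : x' = x + φ ϖ * dx := by rw [← hdx]; ring
  have ey : y' = y + φ ϖ * dy := by rw [← hdy]; ring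
  refine ⟨?_, ?_, ?_⟩
  · intro a b hab
    have h1 : φ ϖ ∣ x * a - y * b := by
      have e : x * a - y * b = (x' * a - y' * b) - φ ϖ * (dx * a - dy * b) := by
        rw [ex, ey]; ring
      rw [e]
      exact dvd_sub hab (dvd_mul_right _ _)
    have h2 := h.inter a b h1
    have e : x' * a = x * a + φ ϖ * (dx * a) := by rw [ex]; ring
    rw [e]
    exact dvd_add h2 (dvd_mul_right _ _)
  · intro g hg
    have h1 : φ ϖ ∣ x * g := by
      have e : x * g = x' * g - φ ϖ * (dx * g) := by rw [ex]; ring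
      rw [e]
      exact dvd_sub hg (dvd_mul_right _ _)
    obtain ⟨g₁, g₂, e⟩ := h.annX g h1
    exact ⟨g₁, g₂ - dy * g₁, by rw [e, ey]; ring⟩
  · intro g hg
    have h1 : φ ϖ ∣ y * g := by
      have e : y * g = y' * g - φ ϖ * (dy * g) := by rw [ey]; ring
      rw [e]
      exact dvd_sub hg (dvd_mul_right _ _)
    obtain ⟨g₁, g₂, e⟩ := h.annY g h1
    exact ⟨g₁, g₂ - dx * g₁, by rw [e, ex]; ring⟩

/-- If `w^(n+1) ∣ S T` at a true node and `w` is regular, then `S` is a nonzerodivisor modulo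
`(T, w^k)` for every `k ≤ n + 1`. -/
theorem TrueNode.regular_mod {S T : O} (hN : TrueNode φ ϖ S T)
    (hreg : ∀ z : O, φ ϖ * z = 0 → z = 0) {n : ℕ} {h₀ : O} (hST : S * T = φ ϖ ^ (n + 1) * h₀) :
    ∀ k, k ≤ n + 1 → ∀ g a b : O, S * g = T * a + φ ϖ ^ k * b →
      ∃ a' b' : O, g = T * a' + φ ϖ ^ k * b' := by
  set w : O := φ ϖ with hw
  intro k
  induction k with
  | zero =>
    intro _ g a b _
    exact ⟨0, g, by simp⟩
  | succ k ih =>
    intro hk g a b e
    have hkn : k ≤ n := Nat.le_of_succ_le_succ hk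
    have h1 : w ∣ S * g - T * a := ⟨w ^ k * b, by rw [e]; ring⟩
    have h2 : w ∣ S * g := hN.inter g a h1
    obtain ⟨g₁, g₂, eg⟩ := hN.annX g h2
    have h3 : w ∣ T * a := by
      have e' : T * a = S * g - (S * g - T * a) := by ring
      rw [e']
      exact dvd_sub h2 h1
    obtain ⟨a₁, a₂, ea⟩ := hN.annY a h3
    have hpow : w ^ n = w ^ k * w ^ (n - k) := by
      rw [← pow_add, Nat.add_sub_cancel' hkn]
    have key : w * (S * g₂ - (T * a₂ + w ^ k * (b + w ^ (n - k) * h₀ * (a₁ - g₁)))) = 0 := by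
      have e1 : S * (T * g₁ + w * g₂) = T * (S * a₁ + w * a₂) + w ^ (k + 1) * b := by
        rw [← eg, ← ea]; exact e
      have e2 : w ^ (n + 1) = w * (w ^ k * w ^ (n - k)) := by rw [pow_succ, hpow]; ring
      have e3 : S * T = w * (w ^ k * w ^ (n - k)) * h₀ := by rw [hST, e2]
      linear_combination e1 + (a₁ - g₁) * e3
    have h4 := hreg _ key
    have h5 : S * g₂ = T * a₂ + w ^ k * (b + w ^ (n - k) * h₀ * (a₁ - g₁)) :=
      sub_eq_zero.mp h4
    obtain ⟨a', b', e'⟩ := ih (Nat.le_succ_of_le hkn) g₂ a₂ _ h5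
    exact ⟨g₁ + w * a', b', by rw [eg, e']; ring⟩

/-- **Finite thickness.**  At a true node of a domain `O`, let `s` be a section of `φ` whose
kernel `P = (S - α, T - β)` is locally principal at `P`: there are `d ∈ P` and `t` with
`t • P ≤ (d)`.  If the section is bad at stage `n`, i.e. `S T = φ c + w^(n+1) h` and
`ϖ^(n+1)` divides both `α = s S` and `β = s T`, then `ϖ^(n+1) ∣ s t`. -/
theorem dvd_section_of_bad [IsDomain O] {S T : O} (hN : TrueNode φ ϖ S T) (hw0 : φ ϖ ≠ 0)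
    {c : R} {h : O} {n : ℕ} (hST : S * T = φ c + φ ϖ ^ (n + 1) * h)
    (s : O →+* R) (hs : ∀ r, s (φ r) = r)
    (hker : ∀ p, s p = 0 → ∃ a b, p = (S - φ (s S)) * a + (T - φ (s T)) * b)
    {d t : O} (hd : s d = 0) (hloc : ∀ p, s p = 0 → ∃ u, t * p = d * u)
    (hα : ϖ ^ (n + 1) ∣ s S) (hβ : ϖ ^ (n + 1) ∣ s T) :
    ϖ ^ (n + 1) ∣ s t := by
  set w : O := φ ϖ with hw
  have hreg : ∀ z : O, w * z = 0 → z = 0 := fun z hz =>
    (mul_eq_zero.mp hz).resolve_left hw0
  obtain ⟨α', hα'⟩ := hα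
  obtain ⟨β', hβ'⟩ := hβ
  have hφα : φ (s S) = w ^ (n + 1) * φ α' := by rw [hα', map_mul, map_pow]
  have hφβ : φ (s T) = w ^ (n + 1) * φ β' := by rw [hβ', map_mul, map_pow]
  -- `c` is divisible by `ϖ^(n+1)`
  have hc : c = ϖ ^ (n + 1) * (ϖ ^ (n + 1) * α' * β' - s h) := by
    have := congrArg s hST
    rw [map_mul, map_add, map_mul, map_pow, hs, hs, hα', hβ'] at this
    linear_combination -this
  have hST' : S * T = w ^ (n + 1) * (φ (ϖ ^ (n + 1) * α' * β' - s h) + h) := by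
    rw [hST]
    nth_rewrite 1 [hc]
    rw [map_mul, map_pow]
    ring
  by_cases ht : t = 0
  · rw [ht, map_zero]; exact dvd_zero _
  by_cases hd0 : d = 0
  · -- then `P = 0`, so `S`, `T` are constants divisible by `w`, and `w` is a unit
    have hP : ∀ p, s p = 0 → p = 0 := by
      intro p hp
      obtain ⟨u, hu⟩ := hloc p hp
      rw [hd0, zero_mul] at hu
      exact (mul_eq_zero.mp hu).resolve_left ht
    have hS0 : S = φ (s S) := sub_eq_zero.mp (hP _ (by rw [map_sub, hs, sub_self]))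
    have hwS : w ∣ S * 1 := by
      rw [mul_one, hS0, hφα]
      exact dvd_mul_of_dvd_left (dvd_pow_self w (Nat.succ_ne_zero n)) _
    have hT0 : T = φ (s T) := sub_eq_zero.mp (hP _ (by rw [map_sub, hs, sub_self]))
    obtain ⟨g₁, g₂, e⟩ := hN.annX 1 hwS
    have hT1 : w ∣ T := by
      rw [hT0, hφβ]
      exact dvd_mul_of_dvd_left (dvd_pow_self w (Nat.succ_ne_zero n)) _
    obtain ⟨T', hT'⟩ := hT1
    have h1 : (1 : O) = w * (T' * g₁ + g₂) := by rw [e, hT']; ring
    have h2 : (1 : R) = ϖ * s (T' * g₁ + g₂) := by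
      have := congrArg s h1
      rw [map_one, map_mul, hw, hs] at this
      exact this
    have hu : IsUnit ϖ := IsUnit.of_mul_eq_one _ h2.symm
    exact (hu.pow (n + 1)).dvd
  -- main case
  obtain ⟨u₁, hu₁⟩ := hloc (S - φ (s S)) (by rw [map_sub, hs, sub_self])
  obtain ⟨u₂, hu₂⟩ := hloc (T - φ (s T)) (by rw [map_sub, hs, sub_self])
  obtain ⟨d₁, d₂, hd12⟩ := hker d hd
  have ht' : t = u₁ * d₁ + u₂ * d₂ := by
    have : d * (t - (u₁ * d₁ + u₂ * d₂)) = 0 := by
      have e1 : t * d = t * (S - φ (s S)) * d₁ + t * (T - φ (s T)) * d₂ := by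
        nth_rewrite 1 [hd12]; ring
      rw [hu₁, hu₂] at e1
      linear_combination e1
    exact sub_eq_zero.mp ((mul_eq_zero.mp this).resolve_left hd0)
  have hstar : u₂ * (S - φ (s S)) = u₁ * (T - φ (s T)) := by
    have : t * (u₂ * (S - φ (s S)) - u₁ * (T - φ (s T))) = 0 := by
      linear_combination u₂ * hu₁ - u₁ * hu₂
    exact sub_eq_zero.mp ((mul_eq_zero.mp this).resolve_left ht)
  -- `u₂ ∈ (T, W)` and `u₁ ∈ (S, W)`
  have e2 : S * u₂ = T * u₁ + w ^ (n + 1) * (u₂ * φ α' - u₁ * φ β') := by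
    rw [hφα, hφβ] at hstar
    linear_combination hstar
  obtain ⟨a₂, b₂, hu₂'⟩ := hN.regular_mod hreg hST' (n + 1) le_rfl u₂ u₁ _ e2
  have hTS : T * S = w ^ (n + 1) * (φ (ϖ ^ (n + 1) * α' * β' - s h) + h) := by
    rw [mul_comm]; exact hST'
  have e1 : T * u₁ = S * u₂ + w ^ (n + 1) * (u₁ * φ β' - u₂ * φ α') := by
    linear_combination -e2
  obtain ⟨a₁, b₁, hu₁'⟩ := hN.symm.regular_mod hreg hTS (n + 1) le_rfl u₁ u₂ _ e1
  -- conclude
  have : s t = ϖ ^ (n + 1) * (α' * s (a₁ * d₁) + β' * s (a₂ * d₂) + s (b₁ * d₁ + b₂ * d₂)) := by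
    have e3 : t = S * (a₁ * d₁) + T * (a₂ * d₂) + w ^ (n + 1) * (b₁ * d₁ + b₂ * d₂) := by
      rw [ht', hu₁', hu₂']; ring
    have hsw : s w = ϖ := hs ϖ
    have := congrArg s e3
    simp only [map_add, map_mul, map_pow, hsw] at this
    rw [this, hα', hβ']
    simp only [map_add, map_mul]
    ring
  exact ⟨_, this⟩

/-- The elementwise property of a discrete valuation ring with uniformiser `ϖ` used below:
an element not divisible by `ϖ^m` divides `ϖ^m`, with quotient divisible by `ϖ`. -/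
def DvrLike (ϖ : R) : Prop :=
  ∀ (a : R) (m : ℕ), ¬ ϖ ^ m ∣ a → ∃ γ, ϖ ∣ γ ∧ ϖ ^ m = a * γ

/-- **Local principality, unconditional form.**  `O` a domain, `R` "DVR-like" and `ϖ`-adically
separated, `ϖ` in the Jacobson radical of `O`, `(x, y)` a true node with `O = R + xO + yO + ϖO`.
Let `s` be a section through the node (`ϖ ∣ s x`, `ϖ ∣ s y`) whose kernel `P` is finitely
generated and locally principal at `P` (witnessed by `d`, `t` with `s t ≠ 0`).
Then there are `d' ∈ P` and a constant `a ≠ 0` dividing a power of `ϖ` such that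
`φ a • P ≤ (d')`. -/
theorem exists_local_generator [IsDomain O] (hdvr : DvrLike ϖ) (hsep : PiSeparated ϖ)
    {x y : O} (hgen : Gen2 φ ϖ x y) (hN : TrueNode φ ϖ x y) (hxy : φ ϖ ∣ x * y)
    (hw0 : φ ϖ ≠ 0) (hjac : φ ϖ ∈ Ideal.jacobson (⊥ : Ideal O))
    (s : O →+* R) (hs : ∀ r, s (φ r) = r) (hsx : ϖ ∣ s x) (hsy : ϖ ∣ s y)
    (hfg : (RingHom.ker s).FG)
    {d t : O} (hd : s d = 0) (ht : s t ≠ 0) (hloc : ∀ p, s p = 0 → ∃ u, t * p = d * u) :
    ∃ (d' : O) (a : R) (m : ℕ), s d' = 0 ∧ a ∣ ϖ ^ m ∧ ∀ p, s p = 0 → ∃ q, φ a * p = d' * q := by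
  -- choose the stage
  obtain ⟨n, hn⟩ : ∃ n, ¬ ϖ ^ (n + 1) ∣ s t := by
    by_contra hcon
    have hcon' : ∀ n, ϖ ^ (n + 1) ∣ s t := fun n => by
      by_contra hh
      exact hcon ⟨n, hh⟩
    apply ht
    apply hsep
    intro n
    exact dvd_trans (pow_dvd_pow ϖ (Nat.le_succ n)) (hcon' n)
  obtain ⟨S, T, c, h, hS, hT, hc, hST⟩ := exists_node_approx hgen hxy n
  have hgen' : Gen2 φ ϖ S T := hgen.congr hS hT
  have hN' : TrueNode φ ϖ S T := hN.congr hS hT
  have hsS : ϖ ∣ s S := by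
    obtain ⟨z, hz⟩ := hS
    have e : S = x + φ ϖ * z := by rw [← hz]; ring
    rw [e, map_add, map_mul, hs]
    exact dvd_add hsx (dvd_mul_right _ _)
  have hsT : ϖ ∣ s T := by
    obtain ⟨z, hz⟩ := hT
    have e : T = y + φ ϖ * z := by rw [← hz]; ring
    rw [e, map_add, map_mul, hs]
    exact dvd_add hsy (dvd_mul_right _ _)
  have hkerI := ker_section_of_fg hgen' s hs hsS hsT hfg hjac
  have hker : ∀ p, s p = 0 → ∃ a b, p = (S - φ (s S)) * a + (T - φ (s T)) * b := by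
    intro p hp
    have : p ∈ Ideal.span {S - φ (s S), T - φ (s T)} := by
      rw [← hkerI]; exact hp
    rw [Ideal.mem_span_pair] at this
    obtain ⟨a, b, e⟩ := this
    exact ⟨a, b, by rw [← e]; ring⟩
  have hgood : ¬ ϖ ^ (n + 1) ∣ s S ∨ ¬ ϖ ^ (n + 1) ∣ s T := by
    by_contra hcon
    rw [not_or, not_not, not_not] at hcon
    exact hn (dvd_section_of_bad hN' hw0 hST s hs hker hd hloc hcon.1 hcon.2)
  rcases hgood with hg | hg
  · obtain ⟨γ, hγ1, hγ2⟩ := hdvr _ _ hg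
    have hγjac : φ γ ∈ Ideal.jacobson (⊥ : Ideal O) := by
      obtain ⟨γ', rfl⟩ := hγ1
      rw [map_mul]
      exact Ideal.mul_mem_right _ _ hjac
    obtain ⟨q, hq⟩ := node_LP hST s hs hker hγ2 (isUnit_one_sub_mul_of_mem_jacobson hγjac)
    refine ⟨S - φ (s S), s S, n + 1, by rw [map_sub, hs, sub_self], ⟨γ, hγ2⟩, ?_⟩
    intro p hp
    obtain ⟨a, b, e⟩ := hker p hp
    exact ⟨φ (s S) * a + q * b, by rw [e]; linear_combination b * hq⟩
  · obtain ⟨γ, hγ1, hγ2⟩ := hdvr _ _ hg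
    have hγjac : φ γ ∈ Ideal.jacobson (⊥ : Ideal O) := by
      obtain ⟨γ', rfl⟩ := hγ1
      rw [map_mul]
      exact Ideal.mul_mem_right _ _ hjac
    have hTS : T * S = φ c + φ ϖ ^ (n + 1) * h := by rw [mul_comm]; exact hST
    have hker' : ∀ p, s p = 0 → ∃ a b, p = (T - φ (s T)) * a + (S - φ (s S)) * b := by
      intro p hp
      obtain ⟨a, b, e⟩ := hker p hp
      exact ⟨b, a, by rw [e]; ring⟩
    obtain ⟨q, hq⟩ := node_LP hTS s hs hker' hγ2 (isUnit_one_sub_mul_of_mem_jacobson hγjac)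
    refine ⟨T - φ (s T), s T, n + 1, by rw [map_sub, hs, sub_self], ⟨γ, hγ2⟩, ?_⟩
    intro p hp
    obtain ⟨a, b, e⟩ := hker p hp
    exact ⟨q * a + φ (s T) * b, by rw [e]; linear_combination a * hq⟩

/-- **Uniqueness of the zero.**  If `φ a • P ≤ (d')` for the kernel `P` of a section `s`, with
`a` a non-zero-divisor constant, then every section `s'` of `φ` killing `d'` equals `s`:
the local generator `d'` vanishes at no other section. -/
theorem section_eq_of_generator {d' : O} {a : R} (ha : ∀ r : R, a * r = 0 → r = 0)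
    (s s' : O →+* R) (hs : ∀ r, s (φ r) = r) (hs' : ∀ r, s' (φ r) = r)
    (hgen : ∀ p, s p = 0 → ∃ q, φ a * p = d' * q) (hd' : s' d' = 0) : s' = s := by
  have key : ∀ p, s p = 0 → s' p = 0 := by
    intro p hp
    obtain ⟨q, hq⟩ := hgen p hp
    have := congrArg s' hq
    rw [map_mul, map_mul, hs', hd', zero_mul] at this
    exact ha _ this
  ext p
  have := key (p - φ (s p)) (by rw [map_sub, hs, sub_self])
  rw [map_sub, hs'] at this
  exact sub_eq_zero.mp this

/-- A discrete valuation ring with uniformiser `ϖ` is `DvrLike`. -/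
theorem dvrLike_of_irreducible [IsDomain R] [IsDiscreteValuationRing R] (hϖ : Irreducible ϖ) :
    DvrLike ϖ := by
  intro a m ha
  have ha0 : a ≠ 0 := by
    rintro rfl
    exact ha (dvd_zero _)
  obtain ⟨k, u, hu⟩ := IsDiscreteValuationRing.eq_unit_mul_pow_irreducible ha0 hϖ
  have hkm : k < m := by
    by_contra hcon
    rw [not_lt] at hcon
    apply ha
    rw [hu]
    exact dvd_mul_of_dvd_right (pow_dvd_pow ϖ hcon) _
  refine ⟨↑u⁻¹ * ϖ ^ (m - k), ?_, ?_⟩
  · exact dvd_mul_of_dvd_right (dvd_pow_self ϖ (Nat.sub_ne_zero_of_lt hkm)) _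
  · rw [hu]
    have e : ϖ ^ m = ϖ ^ k * ϖ ^ (m - k) := by
      rw [← pow_add, Nat.add_sub_cancel' hkm.le]
    rw [e]
    have : (↑u : R) * ↑u⁻¹ = 1 := Units.mul_inv u
    linear_combination (-(ϖ ^ k * ϖ ^ (m - k))) * this

/-- A discrete valuation ring is `ϖ`-adically separated for a non-unit `ϖ`. -/
theorem piSeparated_of_dvr [IsDomain R] [IsDiscreteValuationRing R] (hϖ : Irreducible ϖ) :
    PiSeparated ϖ := by
  intro z hz
  by_contra hz0
  obtain ⟨k, u, hu⟩ := IsDiscreteValuationRing.eq_unit_mul_pow_irreducible hz0 hϖ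
  obtain ⟨z', hz'⟩ := hz (k + 1)
  have h1 : ϖ ^ k * (↑u - ϖ * z') = 0 := by
    have : (↑u : R) * ϖ ^ k = ϖ ^ (k + 1) * z' := by rw [← hu, hz']
    linear_combination this
  have h2 : (↑u : R) - ϖ * z' = 0 :=
    (mul_eq_zero.mp h1).resolve_left (pow_ne_zero k hϖ.ne_zero)
  have h3 : IsUnit (ϖ * z') := by
    have : ϖ * z' = ↑u := by linear_combination -h2
    rw [this]; exact u.isUnit
  exact hϖ.not_isUnit (isUnit_of_mul_isUnit_left h3)

end Thick

end Fermat.Agent.A2.H673
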