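import Mathlib
import Fermat.Agent.A2.H673.NodeThick
import Fermat.Agent.A2.H673.LocFactB

/-!
# Cell A2, route S, piece LP-INST (helper673): local principality at rational horizontal primes

`O` a noetherian local domain (local ring of the normal model at a closed point `z` of the special
fibre), `K = Frac O`, `φ : R →+* O` the structure map from the base discrete valuation ring with
uniformiser `ϖ`, `w = φ ϖ`.

* `locDVR_exists_local_principal` : if `O_P = V` is a discrete valuation ring (`H849.IsLocDVR V P`)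
  then `P` is locally principal at `P` with a uniform denominator: `t • P ≤ (d)`, `d ∈ P`, `t ∉ P`.
* `exists_retraction_of_rational` : a *rational* prime `P` (`R → O / P` bijective) is the kernel of
  a retraction `s : O →+* R` of `φ`.
* `lpData_of_node`, `lpData_of_smooth` : local principality `LPData w P d` at the kernel of a
  retraction through a node (`Gen2`, `TrueNode`; ANY thickness) resp. a smooth point
  (`Gen2 φ ϖ t t`, i.e. `𝔪 = (t, w)`).
* `PointKind φ ϖ` : the closed point is a node or a smooth point with residue field `R / ϖ`.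
* `exists_horizontal_root_of_rational` : **LP-INST + LOCFACT (i)** for a node or a smooth point:
  if `f ≠ 0` is locally `unit × m`-th power at every horizontal height-one prime and every horizontal
  prime where `f` is not a unit is rational, then `f / D ^ m` is a unit at every horizontal
  height-one prime for some `D ≠ 0`.
-/

set_option autoImplicit false
set_option linter.unusedSectionVars false
set_option linter.style.haveILetI false

namespace Fermat.Agent.A2.H673

open Fermat.Agent.A2.H849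

section LocalPrincipal

variable {O : Type*} [CommRing O] [IsDomain O]
variable {K : Type*} [Field K] [Algebra O K] [IsFractionRing O K]

/-- uniform denominators over a finite set. -/
theorem exists_uniform_denominator (P : Ideal O) [P.IsPrime] (d : O) (S : Finset O)
    (h : ∀ p ∈ S, ∃ t, t ∉ P ∧ ∃ u, t * p = d * u) :
    ∃ t, t ∉ P ∧ ∀ p ∈ S, ∃ u, t * p = d * u := by
  classical
  induction S using Finset.induction_on with
  | empty =>
    refine ⟨1, ?_, fun p hp => absurd hp (Finset.notMem_empty p)⟩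
    intro h1
    exact (Ideal.ne_top_iff_one P).1 (Ideal.IsPrime.ne_top ‹P.IsPrime›) h1
  | insert a S _ ih =>
    obtain ⟨t₁, ht₁, h₁⟩ := ih (fun p hp => h p (Finset.mem_insert_of_mem hp))
    obtain ⟨t₂, ht₂, u₂, hu₂⟩ := h a (Finset.mem_insert_self a S)
    refine ⟨t₁ * t₂, fun hmem => ?_, fun p hp => ?_⟩
    · rcases Ideal.IsPrime.mem_or_mem ‹P.IsPrime› hmem with h' | h'
      · exact ht₁ h'
      · exact ht₂ h'
    · rcases Finset.mem_insert.1 hp with rfl | hp'
      · exact ⟨t₁ * u₂, by linear_combination t₁ * hu₂⟩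
      · obtain ⟨u, hu⟩ := h₁ p hp'
        exact ⟨t₂ * u, by linear_combination t₂ * hu⟩

/-- If `O_P` is a discrete valuation ring and `P` is finitely generated, then `P` is locally
principal at `P` with a uniform denominator. -/
theorem locDVR_exists_local_principal [IsNoetherianRing O] {V : ValuationSubring K}
    {P : Ideal O} (hV : IsLocDVR V P) :
    ∃ d ∈ P, ∃ t, t ∉ P ∧ ∀ p ∈ P, ∃ u, t * p = d * u := by
  haveI := hV.dvr
  haveI := hV.prime
  have hinj : Function.Injective (algebraMap O K) := IsFractionRing.injective O K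
  obtain ⟨ϖV, hirr⟩ := IsDiscreteValuationRing.exists_irreducible V
  obtain ⟨r, s, hs, e⟩ := hV.exists_frac ϖV ϖV.2
  have hs0 : algebraMap O K s ≠ 0 :=
    algebraMap_ne_zero_of_ne_zero (fun h0 => hs (h0 ▸ P.zero_mem))
  have hϖ0 : (ϖV : K) ≠ 0 := fun h0 => hirr.ne_zero (Subtype.ext h0)
  have hrP : r ∈ P := by
    by_contra hr
    apply hirr.not_isUnit
    refine IsUnit.of_mul_eq_one ⟨(ϖV : K)⁻¹, ?_⟩ ?_
    · rw [e, mul_inv, inv_inv]
      exact V.mul_mem _ _ (hV.inv_mem r hr) (hV.le s)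
    · apply Subtype.ext
      show (ϖV : K) * (ϖV : K)⁻¹ = 1
      exact mul_inv_cancel₀ hϖ0
  have hmax : IsLocalRing.maximalIdeal V = Ideal.span {ϖV} :=
    (IsDiscreteValuationRing.irreducible_iff_uniformizer ϖV).1 hirr
  have hone : ∀ p ∈ P, ∃ t, t ∉ P ∧ ∃ u, t * p = r * u := by
    intro p hp
    by_cases hp0 : p = 0
    · exact ⟨1, fun h1 => (Ideal.ne_top_iff_one P).1 (Ideal.IsPrime.ne_top ‹P.IsPrime›) h1, 0,
        by rw [hp0]; ring⟩
    have hpm : (⟨algebraMap O K p, hV.le p⟩ : V) ∈ IsLocalRing.maximalIdeal V := by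
      rw [IsLocalRing.mem_maximalIdeal, mem_nonunits_iff]
      intro hu
      obtain ⟨u, hu⟩ := hu
      apply hV.inv_not_mem p hp hp0
      have := (unitAt_of_units u).2
      rw [hu] at this
      exact this
    rw [hmax, Ideal.mem_span_singleton] at hpm
    obtain ⟨z, hz⟩ := hpm
    have hz' : algebraMap O K p = (ϖV : K) * (z : K) := congrArg Subtype.val hz
    obtain ⟨a, t', ht', ez⟩ := hV.exists_frac z z.2
    have ht'0 : algebraMap O K t' ≠ 0 :=
      algebraMap_ne_zero_of_ne_zero (fun h0 => ht' (h0 ▸ P.zero_mem))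
    refine ⟨s * t', fun hmem => ?_, a, ?_⟩
    · rcases Ideal.IsPrime.mem_or_mem ‹P.IsPrime› hmem with h' | h'
      · exact hs h'
      · exact ht' h'
    · apply hinj
      rw [map_mul, map_mul, map_mul, hz', e, ez]
      field_simp
  obtain ⟨S, hS⟩ := (IsNoetherian.noetherian P : P.FG)
  obtain ⟨t, ht, hunif⟩ := exists_uniform_denominator P r S
    (fun p hp => hone p (hS ▸ Ideal.subset_span hp))
  refine ⟨r, hrP, t, ht, ?_⟩
  intro p hp
  rw [← hS] at hp
  refine Submodule.span_induction (p := fun p _ => ∃ u, t * p = r * u) ?_ ?_ ?_ ?_ hp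
  · intro x hx
    exact hunif x hx
  · exact ⟨0, by ring⟩
  · rintro x y _ _ ⟨u, hu⟩ ⟨v, hv⟩
    exact ⟨u + v, by linear_combination hu + hv⟩
  · rintro a x _ ⟨u, hu⟩
    exact ⟨a * u, by rw [smul_eq_mul]; linear_combination a * hu⟩

end LocalPrincipal

section Retraction

variable {R O : Type*} [CommRing R] [CommRing O] (φ : R →+* O)

/-- A rational prime is the kernel of a retraction. -/
theorem exists_retraction_of_rational (P : Ideal O) (hinj : ∀ r : R, φ r ∈ P → r = 0)
    (hrat : ∀ b : O, ∃ r : R, b - φ r ∈ P) :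
    ∃ s : O →+* R, (∀ r, s (φ r) = r) ∧ RingHom.ker s = P := by
  classical
  let g : R →+* O ⧸ P := (Ideal.Quotient.mk P).comp φ
  have hg_inj : Function.Injective g := by
    rw [injective_iff_map_eq_zero]
    intro r hr
    exact hinj r (Ideal.Quotient.eq_zero_iff_mem.1 hr)
  have hg_surj : Function.Surjective g := by
    intro z
    obtain ⟨b, rfl⟩ := Ideal.Quotient.mk_surjective z
    obtain ⟨r, hr⟩ := hrat b
    refine ⟨r, ?_⟩
    show Ideal.Quotient.mk P (φ r) = Ideal.Quotient.mk P b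
    rw [eq_comm, Ideal.Quotient.eq]
    exact hr
  let e : R ≃+* O ⧸ P := RingEquiv.ofBijective g ⟨hg_inj, hg_surj⟩
  refine ⟨(e.symm : O ⧸ P →+* R).comp (Ideal.Quotient.mk P), ?_, ?_⟩
  · intro r
    show e.symm (Ideal.Quotient.mk P (φ r)) = r
    have : Ideal.Quotient.mk P (φ r) = e r := rfl
    rw [this, RingEquiv.symm_apply_apply]
  · ext b
    rw [RingHom.mem_ker]
    show e.symm (Ideal.Quotient.mk P b) = 0 ↔ b ∈ P
    rw [← Ideal.Quotient.eq_zero_iff_mem]
    constructor
    · intro h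
      have := congrArg e h
      rwa [RingEquiv.apply_symm_apply, map_zero] at this
    · intro h
      rw [h, map_zero]

end Retraction

section Inst

variable {R O : Type*} [CommRing R] [CommRing O] [IsDomain O]
variable {K : Type*} [Field K] [Algebra O K] [IsFractionRing O K]
variable {φ : R →+* O} {ϖ : R}

/-- **LP at a node**, in `LPData` form. -/
theorem lpData_of_node [IsNoetherianRing O] (hdvr : DvrLike ϖ) (hsep : PiSeparated ϖ)
    {x y : O} (hgen : Gen2 φ ϖ x y) (hN : TrueNode φ ϖ x y) (hxy : φ ϖ ∣ x * y)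
    (hw0 : φ ϖ ≠ 0) (hjac : φ ϖ ∈ Ideal.jacobson (⊥ : Ideal O))
    (s : O →+* R) (hs : ∀ r, s (φ r) = r) (hsx : ϖ ∣ s x) (hsy : ϖ ∣ s y)
    {V : ValuationSubring K} (hV : IsLocDVR V (RingHom.ker s)) :
    ∃ d, LPData (φ ϖ) (RingHom.ker s) d := by
  obtain ⟨d, hd, t, ht, hloc⟩ := locDVR_exists_local_principal hV
  obtain ⟨d', a, m, hd', ha, hgen'⟩ := exists_local_generator hdvr hsep hgen hN hxy hw0 hjac s hs
    hsx hsy (IsNoetherian.noetherian _) (RingHom.mem_ker.1 hd)
    (fun h0 => ht (RingHom.mem_ker.2 h0)) (fun p hp => hloc p (RingHom.mem_ker.2 hp))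
  refine ⟨d', RingHom.mem_ker.2 hd', φ a, m, ?_, fun p hp => hgen' p (RingHom.mem_ker.1 hp)⟩
  rw [← map_pow]
  exact map_dvd φ ha

/-- **LP at a smooth point**, in `LPData` form: the kernel of a retraction is principal. -/
theorem lpData_of_smooth [IsNoetherianRing O] {t : O} (hgen : Gen2 φ ϖ t t)
    (hjac : φ ϖ ∈ Ideal.jacobson (⊥ : Ideal O))
    (s : O →+* R) (hs : ∀ r, s (φ r) = r) (hst : ϖ ∣ s t) :
    LPData (φ ϖ) (RingHom.ker s) (t - φ (s t)) := by
  have hker := ker_section_of_noetherian hgen s hs hst hst hjac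
  refine ⟨by rw [RingHom.mem_ker, map_sub, hs, sub_self], 1, 0, by rw [pow_zero], ?_⟩
  intro p hp
  rw [hker, Ideal.mem_span_pair] at hp
  obtain ⟨a, b, e⟩ := hp
  exact ⟨a + b, by rw [← e]; ring⟩

/-- A retraction of `φ` maps non-units of a local ring `O` into `ϖ R` (`R` DVR-like domain). -/
theorem dvd_retraction_of_mem_maximalIdeal [IsLocalRing O] [IsDomain R] (hdvr : DvrLike ϖ)
    (hϖ0 : ϖ ≠ 0) (s : O →+* R) (hs : ∀ r, s (φ r) = r) {x : O}
    (hx : x ∈ IsLocalRing.maximalIdeal O) : ϖ ∣ s x := by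
  by_contra hcon
  obtain ⟨γ, ⟨γ', rfl⟩, hγ⟩ := hdvr (s x) 1 (by rwa [pow_one])
  rw [pow_one] at hγ
  have h1 : s x * γ' = 1 := by
    have : ϖ * (s x * γ' - 1) = 0 := by linear_combination -hγ
    rcases mul_eq_zero.1 this with h | h
    · exact absurd h hϖ0
    · exact sub_eq_zero.1 h
  have hker : x * φ γ' - 1 ∈ RingHom.ker s := by
    rw [RingHom.mem_ker, map_sub, map_mul, hs, h1, map_one, sub_self]
  have hne : RingHom.ker s ≠ ⊤ := RingHom.ker_ne_top s
  have hle : RingHom.ker s ≤ IsLocalRing.maximalIdeal O := IsLocalRing.le_maximalIdeal hne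
  have h2 : x * φ γ' ∈ IsLocalRing.maximalIdeal O := Ideal.mul_mem_right _ _ hx
  have h3 : (1 : O) ∈ IsLocalRing.maximalIdeal O := by
    have := (IsLocalRing.maximalIdeal O).sub_mem h2 (hle hker)
    simp at this
  exact (Ideal.ne_top_iff_one _).1 (IsLocalRing.maximalIdeal.isMaximal O).ne_top h3

variable (φ ϖ) in
/-- The closed point of `O` is a node (of any thickness) or a smooth point of the special fibre,
with residue field `R / ϖ`. -/
def PointKind [IsLocalRing O] : Prop :=
  (∃ x y : O, x ∈ IsLocalRing.maximalIdeal O ∧ y ∈ IsLocalRing.maximalIdeal O ∧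
      Gen2 φ ϖ x y ∧ TrueNode φ ϖ x y ∧ φ ϖ ∣ x * y) ∨
    (∃ t : O, t ∈ IsLocalRing.maximalIdeal O ∧ Gen2 φ ϖ t t)

/-- **LP at every rational horizontal prime through a node or a smooth point.** -/
theorem lpData_of_pointKind [IsLocalRing O] [IsNoetherianRing O] [IsDomain R]
    (hdvr : DvrLike ϖ) (hsep : PiSeparated ϖ) (hϖ0 : ϖ ≠ 0)
    (hφ : φ ϖ ∈ IsLocalRing.maximalIdeal O) (hw0 : φ ϖ ≠ 0) (hpt : PointKind φ ϖ)
    {V : ValuationSubring K} {P : Ideal O} (hV : IsLocDVR V P) (hw : φ ϖ ∉ P)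
    (hrat : ∀ b : O, ∃ r : R, b - φ r ∈ P) :
    ∃ d, LPData (φ ϖ) P d := by
  haveI := hV.prime
  have hjac : φ ϖ ∈ Ideal.jacobson (⊥ : Ideal O) := by
    rw [IsLocalRing.jacobson_eq_maximalIdeal ⊥ bot_ne_top]
    exact hφ
  have hinj : ∀ r : R, φ r ∈ P → r = 0 := by
    intro r hr
    by_contra hr0
    -- `r` divides a power of `ϖ`
    obtain ⟨n, hn⟩ : ∃ n, ¬ ϖ ^ n ∣ r := by
      by_contra hcon
      apply hr0
      apply hsep
      intro n
      by_contra hh
      exact hcon ⟨n, hh⟩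
    obtain ⟨γ, -, hγ⟩ := hdvr r n hn
    have : φ ϖ ^ n ∈ P := by
      rw [← map_pow, hγ, map_mul]
      exact Ideal.mul_mem_right _ _ hr
    exact hw (Ideal.IsPrime.mem_of_pow_mem ‹P.IsPrime› n this)
  obtain ⟨s, hs, rfl⟩ := exists_retraction_of_rational φ P hinj hrat
  rcases hpt with ⟨x, y, hx, hy, hgen, hN, hxy⟩ | ⟨t, ht, hgen⟩
  · exact lpData_of_node hdvr hsep hgen hN hxy hw0 hjac s hs
      (dvd_retraction_of_mem_maximalIdeal hdvr hϖ0 s hs hx)
      (dvd_retraction_of_mem_maximalIdeal hdvr hϖ0 s hs hy) hV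
  · exact ⟨_, lpData_of_smooth hgen hjac s hs
      (dvd_retraction_of_mem_maximalIdeal hdvr hϖ0 s hs ht)⟩

/-- **LP-INST + LOCFACT (i).**  At a node or a smooth point of the special fibre, a function
`f ≠ 0` with `m ∣ div f` horizontally, all of whose horizontal zeros and poles through the point
are rational, has a horizontal `m`-th root `D`: `f / D ^ m` is a unit at every horizontal
height-one prime. -/
theorem exists_horizontal_root_of_rational [IsLocalRing O] [IsNoetherianRing O] [IsDomain R]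
    (hdvr : DvrLike ϖ) (hsep : PiSeparated ϖ) (hϖ0 : ϖ ≠ 0)
    (hφ : φ ϖ ∈ IsLocalRing.maximalIdeal O) (hw0 : φ ϖ ≠ 0) (hpt : PointKind φ ϖ)
    (m : ℕ) {f : K} (hf : f ≠ 0)
    (hrat : ∀ P ∈ BadSet (φ ϖ) f, ∀ b : O, ∃ r : R, b - φ r ∈ P)
    (hdiv : ∀ (V : ValuationSubring K) (P : Ideal O), IsLocDVR V P → φ ϖ ∉ P →
      ∃ h u : K, h ≠ 0 ∧ UnitAt V u ∧ f = u * h ^ m) :
    ∃ D : K, D ≠ 0 ∧ ∀ (V : ValuationSubring K) (P : Ideal O), IsLocDVR V P → φ ϖ ∉ P →
      UnitAt V (f / D ^ m) := by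
  refine exists_horizontal_root (φ ϖ) hw0 m hf ?_ hdiv
  rintro P ⟨V, hV, hw, hbad⟩
  exact lpData_of_pointKind hdvr hsep hϖ0 hφ hw0 hpt hV hw (hrat P ⟨V, hV, hw, hbad⟩)

end Inst

end Fermat.Agent.A2.H673
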