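import Mathlib
import Fermat.Agent.A2.H673.LPInst
import Fermat.Agent.A2.H129.LocFactB

/-!
# Cell A2, route S, piece LOCFACT (helper673), part C: the concrete local factorisation

`O` a noetherian integrally closed domain (local ring of the normal model at a closed point of
the special fibre), `K = Frac O`, `w ∈ O`, `σ, σ' : O →+* O` congruent to the identity modulo `w`
inducing `τ, τ'` on `K`.

* `exists_pow_mul_mem_of_dvr`, `exists_pow_mul_mem_range` (**Krull**): an element of `K` which is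
  integral at every horizontal height-one prime lies in `O[1/w]`.
* `locfact_of_LP` : `f ≠ 0` with `m ∣ div f` horizontally and LP at the bad primes ⇒
  `(τ' - 1)(τ - 1) f = (1 + w c) · ((τ' - 1)(τ - 1) D) ^ m`, `c ∈ O`, `D ∈ Kˣ`.
* `locfact_of_rational` : the same at a node (ANY thickness) or a smooth point when the horizontal
  zeros and poles of `f` through the point are rational.
* `locfact_gauss_of_rational` : moreover `(τ' - 1)(τ - 1) D ∈ 1 + 𝔪_W` at every Gauss valuation `W`.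

The statements use `H129.tauSubOne τ f = τ f / f` and are the local input of ALG_ss
(`A2/H348/Final.lean`, `A2/H193/KummerMain.lean`).
-/

set_option autoImplicit false
set_option linter.unusedSectionVars false
set_option linter.style.haveILetI false

namespace Fermat.Agent.A2.H673

open Fermat.Agent.A2.H849 Fermat.Agent.A2.H129

section Krull

variable {O : Type*} [CommRing O] [IsDomain O]
variable {K : Type*} [Field K] [Algebra O K] [IsFractionRing O K]

/-- In a discrete valuation subring, a power of a nonzero non-unit kills every denominator. -/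
theorem exists_pow_mul_mem_of_dvr (V : ValuationSubring K) [IsDiscreteValuationRing V] {ω : K}
    (hω : ω ∈ V) (hω' : ω⁻¹ ∉ V) (x : K) : ∃ n : ℕ, ω ^ n * x ∈ V := by
  by_cases hxV : x ∈ V
  · exact ⟨0, by rwa [pow_zero, one_mul]⟩
  have hx0 : x ≠ 0 := by
    rintro rfl
    exact hxV V.zero_mem
  have hxi : x⁻¹ ∈ V := (V.mem_or_inv_mem x).resolve_left hxV
  set y : V := ⟨x⁻¹, hxi⟩ with hy
  have hy0 : y ≠ 0 := fun h0 => inv_ne_zero hx0 (congrArg Subtype.val h0)
  obtain ⟨ϖ, hirr⟩ := IsDiscreteValuationRing.exists_irreducible V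
  have hspan : Ideal.span {y} ≠ ⊥ := by
    rw [Ne, Ideal.span_singleton_eq_bot]
    exact hy0
  obtain ⟨n, hn⟩ := IsDiscreteValuationRing.ideal_eq_span_pow_irreducible hspan hirr
  have hωm : (⟨ω, hω⟩ : V) ∈ IsLocalRing.maximalIdeal V := by
    rw [IsLocalRing.mem_maximalIdeal, mem_nonunits_iff]
    intro hu
    obtain ⟨u, hu⟩ := hu
    apply hω'
    have := (unitAt_of_units u).2
    rw [hu] at this
    exact this
  rw [hirr.maximalIdeal_eq, Ideal.mem_span_singleton] at hωm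
  obtain ⟨c, hc⟩ := hωm
  have hmem : (⟨ω, hω⟩ : V) ^ n ∈ Ideal.span {y} := by
    rw [hn, Ideal.mem_span_singleton, hc, mul_pow]
    exact dvd_mul_right _ _
  rw [Ideal.mem_span_singleton] at hmem
  obtain ⟨z, hz⟩ := hmem
  refine ⟨n, ?_⟩
  have hz' : ω ^ n = x⁻¹ * (z : K) := by
    have := congrArg Subtype.val hz
    simpa using this
  have : ω ^ n * x = (z : K) := by
    rw [hz', mul_comm x⁻¹, mul_assoc, inv_mul_cancel₀ hx0, mul_one]
  rw [this]
  exact z.2

variable [IsNoetherianRing O]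

/-- The vertical height-one primes. -/
def VertSet (w : O) : Set (Ideal O) :=
  {P | ∃ V : ValuationSubring K, IsLocDVR V P ∧ w ∈ P}

variable (K) in
theorem vertSet_finite {w : O} (hw0 : w ≠ 0) : (VertSet (K := K) w).Finite := by
  refine (Ideal.finite_minimalPrimes_of_isNoetherianRing O (Ideal.span {w})).subset ?_
  rintro P ⟨V, hV, hw⟩
  refine ⟨⟨hV.prime, ?_⟩, ?_⟩
  · rw [Ideal.span_le]
    intro z hz
    rw [Set.mem_singleton_iff] at hz
    rw [hz]; exact hw
  · rintro Q ⟨hQ, hQw⟩ hQP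
    have hQ0 : Q ≠ ⊥ := by
      intro h0
      have : w ∈ Q := hQw (Ideal.subset_span rfl)
      rw [h0, Ideal.mem_bot] at this
      exact hw0 this
    exact (hV.height_one Q hQ hQ0 hQP).ge

/-- **Krull.**  An element of `K` which is integral at every horizontal height-one prime of the
noetherian integrally closed domain `O` lies in `O[1/w]`. -/
theorem exists_pow_mul_mem_range [IsIntegrallyClosed O] {w : O} (hw0 : w ≠ 0) {x : K}
    (hx : ∀ (V : ValuationSubring K) (P : Ideal O), IsLocDVR V P → w ∉ P → x ∈ V) :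
    ∃ (k : ℕ) (a : O), algebraMap O K w ^ k * x = algebraMap O K a := by
  classical
  have hvert : ∀ P : Ideal O, ∃ n : ℕ, ∀ V : ValuationSubring K, IsLocDVR V P → w ∈ P →
      algebraMap O K w ^ n * x ∈ V := by
    intro P
    by_cases hP : ∃ V : ValuationSubring K, IsLocDVR V P ∧ w ∈ P
    · obtain ⟨V, hV, hw⟩ := hP
      haveI := hV.dvr
      obtain ⟨n, hn⟩ := exists_pow_mul_mem_of_dvr V (hV.le w) (hV.inv_not_mem w hw hw0) x
      refine ⟨n, fun V' hV' _ => ?_⟩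
      rw [← locDVR_unique hV hV']
      exact hn
    · exact ⟨0, fun V hV hw => absurd ⟨V, hV, hw⟩ hP⟩
  choose n hn using hvert
  set k : ℕ := (vertSet_finite K hw0).toFinset.sup n with hk
  have hall : ∀ (V : ValuationSubring K) (P : Ideal O), IsLocDVR V P →
      algebraMap O K w ^ k * x ∈ V := by
    intro V P hV
    by_cases hw : w ∈ P
    · have hPmem : P ∈ (vertSet_finite K hw0).toFinset := by
        rw [Set.Finite.mem_toFinset]
        exact ⟨V, hV, hw⟩
      have hle : n P ≤ k := Finset.le_sup hPmem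
      have : algebraMap O K w ^ k * x =
          algebraMap O K w ^ (k - n P) * (algebraMap O K w ^ n P * x) := by
        rw [← mul_assoc, ← pow_add, Nat.sub_add_cancel hle]
      rw [this]
      exact V.mul_mem _ _ (V.pow_mem (hV.le w) _) (hn P V hV hw)
    · exact V.mul_mem _ _ (V.pow_mem (hV.le w) _) (hx V P hV hw)
  obtain ⟨a, ha⟩ := mem_range_of_forall_isLocDVR (algebraMap O K w ^ k * x) hall
  exact ⟨k, a, ha.symm⟩

end Krull

section LocFact

variable {O : Type*} [CommRing O] [IsDomain O] [IsNoetherianRing O] [IsIntegrallyClosed O]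
variable {K : Type*} [Field K] [Algebra O K] [IsFractionRing O K]

/-- **LOCFACT from a horizontal root.**  If `f / D ^ m` is a unit at every horizontal height-one
prime, then `(τ' - 1)(τ - 1) f = (1 + w c) · ((τ' - 1)(τ - 1) D) ^ m` with `c ∈ O`. -/
theorem locfact_of_horizontal_root (w : O) (hw0 : w ≠ 0) (τ τ' : K ≃+* K) (σ σ' : O →+* O)
    (hστ : ∀ b, algebraMap O K (σ b) = τ (algebraMap O K b))
    (hσ : ∀ b, w ∣ σ b - b) (hw : σ w ∣ w)
    (hστ' : ∀ b, algebraMap O K (σ' b) = τ' (algebraMap O K b))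
    (hσ' : ∀ b, w ∣ σ' b - b)
    (m : ℕ) {f D : K} (hf : f ≠ 0) (hD0 : D ≠ 0)
    (hD : ∀ (V : ValuationSubring K) (P : Ideal O), IsLocDVR V P → w ∉ P →
      UnitAt V (f / D ^ m)) :
    ∃ c : O, tauSubOne τ' (tauSubOne τ f) =
      algebraMap O K (1 + w * c) * tauSubOne τ' (tauSubOne τ D) ^ m := by
  set ε : K := f / D ^ m with hε
  have hDm : D ^ m ≠ 0 := pow_ne_zero m hD0
  have hε0 : ε ≠ 0 := div_ne_zero hf hDm
  obtain ⟨k, a, ha⟩ := exists_pow_mul_mem_range hw0 (x := ε)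
    (fun V P hV hwP => (hD V P hV hwP).1)
  obtain ⟨l, b, hb⟩ := exists_pow_mul_mem_range hw0 (x := ε⁻¹)
    (fun V P hV hwP => (hD V P hV hwP).2)
  obtain ⟨c, hc⟩ := tauSubOne_twice_vertical w hw0 τ τ' σ σ' hστ hσ hw hστ' hσ' hε0 ha hb
  refine ⟨c, ?_⟩
  have hfe : f = ε * D ^ m := by rw [hε, div_mul_cancel₀ _ hDm]
  rw [← hc, ← tauSubOne_pow, ← tauSubOne_pow, ← tauSubOne_mul, ← tauSubOne_mul, ← hfe]

/-- **LOCFACT from LP.**  `f ≠ 0` with `m ∣ div f` horizontally and local principality at the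
horizontal primes where `f` is not a unit. -/
theorem locfact_of_LP (w : O) (hw0 : w ≠ 0) (τ τ' : K ≃+* K) (σ σ' : O →+* O)
    (hστ : ∀ b, algebraMap O K (σ b) = τ (algebraMap O K b))
    (hσ : ∀ b, w ∣ σ b - b) (hw : σ w ∣ w)
    (hστ' : ∀ b, algebraMap O K (σ' b) = τ' (algebraMap O K b))
    (hσ' : ∀ b, w ∣ σ' b - b)
    (m : ℕ) {f : K} (hf : f ≠ 0)
    (hLP : ∀ P ∈ BadSet w f, ∃ d, LPData w P d)
    (hdiv : ∀ (V : ValuationSubring K) (P : Ideal O), IsLocDVR V P → w ∉ P →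
      ∃ h u : K, h ≠ 0 ∧ UnitAt V u ∧ f = u * h ^ m) :
    ∃ D : K, D ≠ 0 ∧ ∃ c : O, tauSubOne τ' (tauSubOne τ f) =
      algebraMap O K (1 + w * c) * tauSubOne τ' (tauSubOne τ D) ^ m := by
  obtain ⟨D, hD0, hD⟩ := exists_horizontal_root w hw0 m hf hLP hdiv
  exact ⟨D, hD0, locfact_of_horizontal_root w hw0 τ τ' σ σ' hστ hσ hw hστ' hσ' m hf hD0 hD⟩

variable {R : Type*} [CommRing R] [IsDomain R] {φ : R →+* O} {ϖ : R}

/-- **LOCFACT at a node (any thickness) or a smooth point, rational support.** -/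
theorem locfact_of_rational [IsLocalRing O] (hdvr : DvrLike ϖ) (hsep : PiSeparated ϖ)
    (hϖ0 : ϖ ≠ 0) (hφ : φ ϖ ∈ IsLocalRing.maximalIdeal O) (hw0 : φ ϖ ≠ 0)
    (hpt : PointKind φ ϖ)
    (τ τ' : K ≃+* K) (σ σ' : O →+* O)
    (hστ : ∀ b, algebraMap O K (σ b) = τ (algebraMap O K b))
    (hσ : ∀ b, φ ϖ ∣ σ b - b) (hw : σ (φ ϖ) ∣ φ ϖ)
    (hστ' : ∀ b, algebraMap O K (σ' b) = τ' (algebraMap O K b))
    (hσ' : ∀ b, φ ϖ ∣ σ' b - b)
    (m : ℕ) {f : K} (hf : f ≠ 0)
    (hrat : ∀ P ∈ BadSet (φ ϖ) f, ∀ b : O, ∃ r : R, b - φ r ∈ P)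
    (hdiv : ∀ (V : ValuationSubring K) (P : Ideal O), IsLocDVR V P → φ ϖ ∉ P →
      ∃ h u : K, h ≠ 0 ∧ UnitAt V u ∧ f = u * h ^ m) :
    ∃ D : K, D ≠ 0 ∧ ∃ c : O, tauSubOne τ' (tauSubOne τ f) =
      algebraMap O K (1 + φ ϖ * c) * tauSubOne τ' (tauSubOne τ D) ^ m := by
  obtain ⟨D, hD0, hD⟩ :=
    exists_horizontal_root_of_rational hdvr hsep hϖ0 hφ hw0 hpt m hf hrat hdiv
  exact ⟨D, hD0,
    locfact_of_horizontal_root (φ ϖ) hw0 τ τ' σ σ' hστ hσ hw hστ' hσ' m hf hD0 hD⟩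

/-- **LOCFACT with the Gauss congruence.**  In addition `h = (τ' - 1)(τ - 1) D ∈ 1 + 𝔪_W` for
every valuation subring `W` of `K` on which `τ, τ'` are inertial and whose values are attained on
the constants `Kc` (the Gauss valuations of the components of the special fibre). -/
theorem locfact_gauss_of_rational [IsLocalRing O] (hdvr : DvrLike ϖ) (hsep : PiSeparated ϖ)
    (hϖ0 : ϖ ≠ 0) (hφ : φ ϖ ∈ IsLocalRing.maximalIdeal O) (hw0 : φ ϖ ≠ 0)
    (hpt : PointKind φ ϖ)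
    (τ τ' : K ≃+* K) (σ σ' : O →+* O)
    (hστ : ∀ b, algebraMap O K (σ b) = τ (algebraMap O K b))
    (hσ : ∀ b, φ ϖ ∣ σ b - b) (hw : σ (φ ϖ) ∣ φ ϖ)
    (hστ' : ∀ b, algebraMap O K (σ' b) = τ' (algebraMap O K b))
    (hσ' : ∀ b, φ ϖ ∣ σ' b - b)
    (m : ℕ) {f : K} (hf : f ≠ 0)
    (hrat : ∀ P ∈ BadSet (φ ϖ) f, ∀ b : O, ∃ r : R, b - φ r ∈ P)
    (hdiv : ∀ (V : ValuationSubring K) (P : Ideal O), IsLocDVR V P → φ ϖ ∉ P →
      ∃ h u : K, h ≠ 0 ∧ UnitAt V u ∧ f = u * h ^ m)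
    (Kc : Subfield K) (𝒲 : Set (ValuationSubring K))
    (hW : ∀ W ∈ 𝒲, HasConstValues Kc W ∧ InInertia W τ ∧ PreservesConstValues Kc W τ ∧
      InInertia W τ') :
    ∃ (h : K) (c : O), h ≠ 0 ∧
      tauSubOne τ' (tauSubOne τ f) = algebraMap O K (1 + φ ϖ * c) * h ^ m ∧
      ∀ W ∈ 𝒲, OneAddNonunits W h := by
  obtain ⟨D, hD0, c, hc⟩ := locfact_of_rational hdvr hsep hϖ0 hφ hw0 hpt τ τ' σ σ' hστ hσ hw
    hστ' hσ' m hf hrat hdiv
  refine ⟨tauSubOne τ' (tauSubOne τ D), c, tauSubOne_ne_zero τ' (tauSubOne_ne_zero τ hD0), hc, ?_⟩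
  intro W hWm
  obtain ⟨h1, h2, h3, h4⟩ := hW W hWm
  exact oneAddNonunits_twice' h1 h2 h3 h4 hD0

end LocFact


end Fermat.Agent.A2.H673
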