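import Mathlib
import Fermat.Agent.A2.H673.LocFactC

/-!
# Cell A2, route S, piece LOC-CHART (helper673): local factorisation at a closed point of a chart

`R` the base ring with uniformiser `ϖ`, `F` the function field, `B : Subalgebra R F` a chart of
the normal model (noetherian, integrally closed in `F = Frac B`), `𝔪` a maximal ideal of `B`
containing `ϖ` (a closed point of the special fibre).  The local ring is realised inside `F` as
`H849.locAt F 𝔪`.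

* `locMap B 𝔪 : R →+* locAt F 𝔪` : the structure map.
* `CongrOn B ϖ τ` : `τ b - b ∈ ϖ B` for `b ∈ B` (inertia acts trivially on the special fibre).
* `locEnd` : the endomorphism of `locAt F 𝔪` induced by `τ`; `locEnd_congr`.
* `chart_locfact` : **the local factorisation in the form consumed by ALG_ss**
  (`H348.ChartData.loc`): if the closed point is a node (any thickness) or a smooth point
  (`PointKind (locMap B 𝔪) ϖ`), `m ∣ div f` on the generic fibre and the zeros and poles of `f`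
  through the point are rational, then for `u = (τ' - 1)(τ - 1) f`
      `u * s = h ^ m * (s + ϖ a)`,  `s, a ∈ B`, `s ∉ 𝔪`, `h ∈ 1 + ϖ V_gauss`.
-/

set_option autoImplicit false
set_option linter.unusedSectionVars false
set_option linter.style.haveILetI false

namespace Fermat.Agent.A2.H673

open Fermat.Agent.A2.H849 Fermat.Agent.A2.H129

section Chart

variable {R : Type*} [CommRing R]
variable {F : Type*} [Field F] [Algebra R F]

/-- `τ ≡ id` modulo `ϖ` on the chart `B`. -/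
def CongrOn (B : Subalgebra R F) (ϖ : R) (τ : F ≃+* F) : Prop :=
  ∀ b ∈ B, ∃ c ∈ B, τ b - b = algebraMap R F ϖ * c

theorem CongrOn.map_mem {B : Subalgebra R F} {ϖ : R} {τ : F ≃+* F} (h : CongrOn B ϖ τ) {b : F}
    (hb : b ∈ B) : τ b ∈ B := by
  obtain ⟨c, hc, e⟩ := h b hb
  have : τ b = b + algebraMap R F ϖ * c := by rw [← e]; ring
  rw [this]
  exact B.add_mem hb (B.mul_mem (B.algebraMap_mem ϖ) hc)

variable (B : Subalgebra R F) [IsFractionRing B F] (𝔪 : Ideal B) [𝔪.IsPrime]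

/-- The structure map `R → B_𝔪`. -/
noncomputable def locMap : R →+* locAt F 𝔪 :=
  (algebraMap B (locAt F 𝔪)).comp (algebraMap R B)

theorem coe_locMap (r : R) : ((locMap B 𝔪 r : locAt F 𝔪) : F) = algebraMap R F r := rfl

theorem coe_algebraMap_locAt (b : B) : ((algebraMap B (locAt F 𝔪) b : locAt F 𝔪) : F) = (b : F) :=
  rfl

theorem mem_locAt_iff' (x : F) :
    x ∈ locAt F 𝔪 ↔ ∃ a s : B, s ∉ 𝔪 ∧ x = (a : F) * (s : F)⁻¹ :=
  mem_locAt_iff 𝔪 x

variable {B 𝔪}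

theorem CongrOn.not_mem {ϖ : R} {τ : F ≃+* F} (h : CongrOn B ϖ τ)
    (hw : algebraMap R B ϖ ∈ 𝔪) {s : B} (hs : s ∉ 𝔪) :
    (⟨τ (s : F), h.map_mem s.2⟩ : B) ∉ 𝔪 := by
  intro hmem
  apply hs
  obtain ⟨c, hc, e⟩ := h s s.2
  have : s = (⟨τ (s : F), h.map_mem s.2⟩ : B) - algebraMap R B ϖ * ⟨c, hc⟩ := by
    apply Subtype.ext
    show (s : F) = τ (s : F) - algebraMap R F ϖ * c
    rw [← e]; ring
  rw [this]
  exact 𝔪.sub_mem hmem (𝔪.mul_mem_right _ hw)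

theorem CongrOn.map_mem_locAt {ϖ : R} {τ : F ≃+* F} (h : CongrOn B ϖ τ)
    (hw : algebraMap R B ϖ ∈ 𝔪) {x : F} (hx : x ∈ locAt F 𝔪) : τ x ∈ locAt F 𝔪 := by
  obtain ⟨a, s, hs, rfl⟩ := (mem_locAt_iff' B 𝔪 x).1 hx
  rw [mem_locAt_iff']
  refine ⟨⟨τ (a : F), h.map_mem a.2⟩, ⟨τ (s : F), h.map_mem s.2⟩, h.not_mem hw hs, ?_⟩
  rw [map_mul, map_inv₀]

/-- The endomorphism of the local ring `B_𝔪` induced by `τ`. -/
noncomputable def locEnd {ϖ : R} {τ : F ≃+* F} (h : CongrOn B ϖ τ)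
    (hw : algebraMap R B ϖ ∈ 𝔪) : locAt F 𝔪 →+* locAt F 𝔪 where
  toFun x := ⟨τ (x : F), h.map_mem_locAt hw x.2⟩
  map_one' := Subtype.ext (map_one τ)
  map_mul' x y := Subtype.ext (map_mul τ (x : F) (y : F))
  map_zero' := Subtype.ext (map_zero τ)
  map_add' x y := Subtype.ext (map_add τ (x : F) (y : F))

theorem coe_locEnd {ϖ : R} {τ : F ≃+* F} (h : CongrOn B ϖ τ)
    (hw : algebraMap R B ϖ ∈ 𝔪) (x : locAt F 𝔪) :
    ((locEnd h hw x : locAt F 𝔪) : F) = τ (x : F) := rfl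

theorem locEnd_congr {ϖ : R} {τ : F ≃+* F} (h : CongrOn B ϖ τ)
    (hw : algebraMap R B ϖ ∈ 𝔪) (b : locAt F 𝔪) :
    locMap B 𝔪 ϖ ∣ locEnd h hw b - b := by
  obtain ⟨a, s, hs, e⟩ := (mem_locAt_iff' B 𝔪 (b : F)).1 b.2
  obtain ⟨ca, hca, ea⟩ := h a a.2
  obtain ⟨cs, hcs, es⟩ := h s s.2
  have hs' := h.not_mem hw hs
  have hs0 : (s : F) ≠ 0 := by
    intro h0
    apply hs
    have : s = 0 := Subtype.ext h0
    rw [this]; exact 𝔪.zero_mem
  have hτs0 : τ (s : F) ≠ 0 := by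
    intro h0
    exact hs0 ((map_eq_zero τ).1 h0)
  -- the quotient
  have hmem : (ca * (s : F) - (a : F) * cs) * ((s : F) * τ (s : F))⁻¹ ∈ locAt F 𝔪 := by
    rw [mem_locAt_iff']
    refine ⟨⟨ca, hca⟩ * s - a * ⟨cs, hcs⟩, s * ⟨τ (s : F), h.map_mem s.2⟩, ?_, rfl⟩
    intro hmem
    rcases Ideal.IsPrime.mem_or_mem ‹𝔪.IsPrime› hmem with h' | h'
    · exact hs h'
    · exact hs' h'
  refine ⟨⟨_, hmem⟩, ?_⟩
  apply Subtype.ext
  show τ (b : F) - (b : F) =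
    algebraMap R F ϖ * ((ca * (s : F) - (a : F) * cs) * ((s : F) * τ (s : F))⁻¹)
  have ea' : τ (a : F) = (a : F) + algebraMap R F ϖ * ca := by rw [← ea]; ring
  have es' : τ (s : F) = (s : F) + algebraMap R F ϖ * cs := by rw [← es]; ring
  have hτs0' : (s : F) + algebraMap R F ϖ * cs ≠ 0 := by rw [← es']; exact hτs0
  rw [e, map_mul, map_inv₀, ea', es']
  field_simp
  ring

end Chart

section Main

variable {R : Type*} [CommRing R] [IsDomain R]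
variable {F : Type*} [Field F] [Algebra R F]
variable {B : Subalgebra R F} [IsFractionRing B F] [IsNoetherianRing B]
variable {𝔪 : Ideal B} [𝔪.IsPrime]

omit [IsDomain R] [IsNoetherianRing B] in
/-- an element of `B_𝔪` of valuation `< 1` at `V = (B_𝔪)_P` lies in `P`. -/
theorem mem_of_valuation_lt_one {V : ValuationSubring F} {P : Ideal (locAt F 𝔪)}
    (hV : IsLocDVR V P) (x : locAt F 𝔪) (hx : V.valuation (x : F) < 1) : x ∈ P := by
  by_contra hxP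
  have hinv : ((x : F))⁻¹ ∈ V := hV.inv_mem x hxP
  have hx0 : (x : F) ≠ 0 := by
    intro h0
    apply hxP
    have : x = 0 := Subtype.ext h0
    rw [this]; exact P.zero_mem
  have h1 : V.valuation ((x : F))⁻¹ ≤ 1 := (V.valuation_le_one_iff _).2 hinv
  have h2 : V.valuation ((x : F) * ((x : F))⁻¹) < 1 := by
    rw [map_mul]
    calc V.valuation (x : F) * V.valuation ((x : F))⁻¹ ≤ V.valuation (x : F) * 1 :=
          mul_le_mul' le_rfl h1
      _ = V.valuation (x : F) := mul_one _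
      _ < 1 := hx
  rw [mul_inv_cancel₀ hx0, map_one] at h2
  exact lt_irrefl _ h2

omit [IsNoetherianRing B] in
/-- **Residues.**  If every element of the chart `B` is congruent to a constant modulo the prime
`P` of `B_𝔪`, so is every element of `B_𝔪`. -/
theorem exists_sub_mem_of_chart (ϖ : R) (hdvr : DvrLike ϖ) (hϖ0 : ϖ ≠ 0)
    (hw𝔪 : algebraMap R B ϖ ∈ 𝔪) (P : Ideal (locAt F 𝔪)) [P.IsPrime]
    (h : ∀ b : B, ∃ r : R, algebraMap B (locAt F 𝔪) b - locMap B 𝔪 r ∈ P)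
    (b : locAt F 𝔪) : ∃ r : R, b - locMap B 𝔪 r ∈ P := by
  have hφm : locMap B 𝔪 ϖ ∈ IsLocalRing.maximalIdeal (locAt F 𝔪) :=
    (IsLocalization.AtPrime.to_map_mem_maximal_iff (locAt F 𝔪) 𝔪 (algebraMap R B ϖ)).2 hw𝔪
  obtain ⟨a, s, hs, e⟩ := (mem_locAt_iff' B 𝔪 (b : F)).1 b.2
  obtain ⟨ra, haP⟩ := h a
  obtain ⟨rs, hsP⟩ := h s
  have hsu : IsUnit (algebraMap B (locAt F 𝔪) s) :=
    IsLocalization.map_units (locAt F 𝔪) (⟨s, hs⟩ : 𝔪.primeCompl)
  have hPle : P ≤ IsLocalRing.maximalIdeal (locAt F 𝔪) :=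
    IsLocalRing.le_maximalIdeal (Ideal.IsPrime.ne_top ‹P.IsPrime›)
  have hrs' : ¬ ϖ ∣ rs := by
    rintro ⟨z, rfl⟩
    have h1 : locMap B 𝔪 (ϖ * z) ∈ IsLocalRing.maximalIdeal (locAt F 𝔪) := by
      rw [map_mul]
      exact Ideal.mul_mem_right _ _ hφm
    have h2 : algebraMap B (locAt F 𝔪) s ∈ IsLocalRing.maximalIdeal (locAt F 𝔪) := by
      have := (IsLocalRing.maximalIdeal (locAt F 𝔪)).add_mem (hPle hsP) h1
      rwa [sub_add_cancel] at this
    exact (IsLocalRing.mem_maximalIdeal _).1 h2 hsu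
  obtain ⟨γ, ⟨γ', rfl⟩, hγ⟩ := hdvr rs 1 (by rwa [pow_one])
  rw [pow_one] at hγ
  have h1 : rs * γ' = 1 := by
    have : ϖ * (rs * γ' - 1) = 0 := by linear_combination -hγ
    rcases mul_eq_zero.1 this with h | h
    · exact absurd h hϖ0
    · exact sub_eq_zero.1 h
  refine ⟨ra * γ', ?_⟩
  have hs0 : (s : F) ≠ 0 := by
    intro h0
    apply hs
    have : s = 0 := Subtype.ext h0
    rw [this]; exact 𝔪.zero_mem
  have e1 : algebraMap B (locAt F 𝔪) s * b = algebraMap B (locAt F 𝔪) a := by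
    apply Subtype.ext
    show (s : F) * (b : F) = (a : F)
    rw [e]
    field_simp
  have hφ1 : locMap B 𝔪 rs * locMap B 𝔪 γ' = 1 := by
    rw [← map_mul, h1, map_one]
  have key : algebraMap B (locAt F 𝔪) s * (b - locMap B 𝔪 (ra * γ')) ∈ P := by
    have : algebraMap B (locAt F 𝔪) s * (b - locMap B 𝔪 (ra * γ')) =
        (algebraMap B (locAt F 𝔪) a - locMap B 𝔪 ra) -
          (algebraMap B (locAt F 𝔪) s - locMap B 𝔪 rs) * locMap B 𝔪 (ra * γ') := by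
      rw [map_mul]
      linear_combination e1 - (locMap B 𝔪 ra) * hφ1
    rw [this]
    exact P.sub_mem haP (P.mul_mem_right _ hsP)
  rcases Ideal.IsPrime.mem_or_mem ‹P.IsPrime› key with h' | h'
  · exact absurd (hPle h') (fun hm => (IsLocalRing.mem_maximalIdeal _).1 hm hsu)
  · exact h'

/-- **LOC-CHART.**  The local factorisation of `u = (τ' - 1)(τ - 1) f` at a closed point `𝔪` of
the special fibre of the chart `B`, in the form consumed by ALG_ss. -/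
theorem chart_locfact
    (ϖ : R) (hdvr : DvrLike ϖ) (hsep : PiSeparated ϖ) (hϖ0 : ϖ ≠ 0)
    (hinjR : Function.Injective (algebraMap R F))
    (hBcl : ∀ f : F, IsIntegral B f → f ∈ B)
    (hw𝔪 : algebraMap R B ϖ ∈ 𝔪)
    (hpt : PointKind (locMap B 𝔪) ϖ)
    (τ τ' : F ≃+* F) (hτ : CongrOn B ϖ τ) (hτ' : CongrOn B ϖ τ')
    (hτϖ : ∃ u : R, algebraMap R F ϖ = τ (algebraMap R F ϖ) * algebraMap R F u)
    (m : ℕ) {f : F} (hf : f ≠ 0)
    (hdiv : ∀ V : ValuationSubring F, IsDiscreteValuationRing V → (∀ b ∈ B, b ∈ V) →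
      (algebraMap R F ϖ)⁻¹ ∈ V → ∃ h u : F, h ≠ 0 ∧ UnitAt V u ∧ f = u * h ^ m)
    (hrat : ∀ V : ValuationSubring F, IsDiscreteValuationRing V → (∀ b ∈ B, b ∈ V) →
      (algebraMap R F ϖ)⁻¹ ∈ V → (∀ s : B, s ∉ 𝔪 → ((s : F))⁻¹ ∈ V) → ¬ UnitAt V f →
      ∀ b ∈ B, ∃ r : R, V.valuation (b - algebraMap R F r) < 1)
    (Kc : Subfield F) (𝒲 : Set (ValuationSubring F))
    (hW : ∀ W ∈ 𝒲, HasConstValues Kc W ∧ InInertia W τ ∧ PreservesConstValues Kc W τ ∧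
      InInertia W τ')
    (Vg : Subalgebra R F)
    (hVg : ∀ g : F, (∀ W ∈ 𝒲, OneAddNonunits W g) →
      ∃ t ∈ Vg, g = 1 + algebraMap R F ϖ * t) :
    ∃ h : F, (∃ t ∈ Vg, h = 1 + algebraMap R F ϖ * t) ∧
      ∃ s a : B, s ∉ 𝔪 ∧ tauSubOne τ' (tauSubOne τ f) * (s : F) =
        h ^ m * ((s : F) + algebraMap R F ϖ * (a : F)) := by
  haveI : IsIntegrallyClosed B :=
    (isIntegrallyClosed_iff F).2 (fun {x} hx => ⟨⟨x, hBcl x hx⟩, rfl⟩)
  haveI : IsIntegrallyClosed (locAt F 𝔪) :=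
    isIntegrallyClosed_of_isLocalization (locAt F 𝔪) 𝔪.primeCompl
      𝔪.primeCompl_le_nonZeroDivisors
  have hφm : locMap B 𝔪 ϖ ∈ IsLocalRing.maximalIdeal (locAt F 𝔪) :=
    (IsLocalization.AtPrime.to_map_mem_maximal_iff (locAt F 𝔪) 𝔪 (algebraMap R B ϖ)).2 hw𝔪
  have hwF : algebraMap R F ϖ ≠ 0 := fun h0 => hϖ0 (hinjR (by rw [h0, map_zero]))
  have hw0 : locMap B 𝔪 ϖ ≠ 0 := by
    intro h0
    exact hwF (congrArg Subtype.val h0)
  have hστ : ∀ b, algebraMap (locAt F 𝔪) F (locEnd hτ hw𝔪 b) = τ (algebraMap (locAt F 𝔪) F b) :=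
    fun _ => rfl
  have hστ' : ∀ b, algebraMap (locAt F 𝔪) F (locEnd hτ' hw𝔪 b) =
      τ' (algebraMap (locAt F 𝔪) F b) := fun _ => rfl
  have hw : locEnd hτ hw𝔪 (locMap B 𝔪 ϖ) ∣ locMap B 𝔪 ϖ := by
    obtain ⟨u, hu⟩ := hτϖ
    exact ⟨locMap B 𝔪 u, Subtype.ext hu⟩
  have hBV : ∀ {V : ValuationSubring F} {P : Ideal (locAt F 𝔪)}, IsLocDVR V P →
      ∀ b ∈ B, b ∈ V := fun hV b hb => hV.le (algebraMap B (locAt F 𝔪) ⟨b, hb⟩)
  have hdiv' : ∀ (V : ValuationSubring F) (P : Ideal (locAt F 𝔪)), IsLocDVR V P →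
      locMap B 𝔪 ϖ ∉ P → ∃ h u : F, h ≠ 0 ∧ UnitAt V u ∧ f = u * h ^ m := by
    intro V P hV hwP
    exact hdiv V hV.dvr (hBV hV) (hV.inv_mem _ hwP)
  have hrat' : ∀ P ∈ BadSet (locMap B 𝔪 ϖ) f, ∀ b : locAt F 𝔪, ∃ r : R,
      b - locMap B 𝔪 r ∈ P := by
    rintro P ⟨V, hV, hwP, hbad⟩ b
    haveI := hV.prime
    have hcentre : ∀ s : B, s ∉ 𝔪 → ((s : F))⁻¹ ∈ V := by
      intro s hs
      have : ((s : F))⁻¹ ∈ locAt F 𝔪 :=
        (mem_locAt_iff' B 𝔪 _).2 ⟨1, s, hs, by rw [OneMemClass.coe_one, one_mul]⟩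
      exact hV.le ⟨_, this⟩
    have hr := hrat V hV.dvr (hBV hV) (hV.inv_mem _ hwP) hcentre hbad
    exact exists_sub_mem_of_chart ϖ hdvr hϖ0 hw𝔪 P
      (fun a => by
        obtain ⟨r, hr'⟩ := hr a a.2
        exact ⟨r, mem_of_valuation_lt_one hV _ hr'⟩) b
  obtain ⟨h, c, -, hc, hgauss⟩ := locfact_gauss_of_rational hdvr hsep hϖ0 hφm hw0 hpt τ τ'
    (locEnd hτ hw𝔪) (locEnd hτ' hw𝔪) hστ (locEnd_congr hτ hw𝔪) hw hστ'
    (locEnd_congr hτ' hw𝔪) m hf hrat' hdiv' Kc 𝒲 hW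
  obtain ⟨a, s, hs, e⟩ := (mem_locAt_iff' B 𝔪 (c : F)).1 c.2
  refine ⟨h, hVg h hgauss, s, a, hs, ?_⟩
  have hs0 : (s : F) ≠ 0 := by
    intro h0
    apply hs
    have : s = 0 := Subtype.ext h0
    rw [this]; exact 𝔪.zero_mem
  have hcoe : algebraMap (locAt F 𝔪) F (1 + locMap B 𝔪 ϖ * c) =
      1 + algebraMap R F ϖ * ((a : F) * ((s : F))⁻¹) := by
    show ((1 : F) + algebraMap R F ϖ * (c : F)) = _
    rw [e]
  rw [hc, hcoe]
  field_simp

end Main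

end Fermat.Agent.A2.H673
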