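import Mathlib
import Fermat.Agent.A2.H849.Hartogs

/-!
# Cell A2, route S, piece LOCFACT (helper673), part A: horizontal `m`-th roots from LP

`O` a noetherian integrally closed domain (local ring of the normal model at a closed point of the
special fibre), `K = Frac O`, `w ∈ O`.  Height-one primes are handled through
`H849.IsLocDVR V P` (`V = O_P` a discrete valuation subring of `K`).

* `UnitAt V x` : `x` and `x⁻¹` lie in `V`.
* `LPData w P d` : local principality at `P`: `d ∈ P` and `a • P ≤ (d)` for some `a ∣ w ^ N`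
  (output of `exists_local_generator`, `local_generator_of_stage`).
* `exists_horizontal_root` : if `f ≠ 0` is locally `unit × m`-th power at every horizontal
  height-one prime and LP holds at every horizontal prime where `f` is not a unit, then there is
  `D ≠ 0` with `f / D ^ m` a unit at EVERY horizontal height-one prime.
-/

set_option autoImplicit false
set_option linter.unusedSectionVars false
set_option linter.style.haveILetI false

namespace Fermat.Agent.A2.H673

open Fermat.Agent.A2.H849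

variable {O : Type*} [CommRing O] [IsDomain O]
variable {K : Type*} [Field K] [Algebra O K] [IsFractionRing O K]

/-- `x` is a unit of the valuation ring `V` (or `x = 0`). -/
def UnitAt (V : ValuationSubring K) (x : K) : Prop := x ∈ V ∧ x⁻¹ ∈ V

theorem UnitAt.one (V : ValuationSubring K) : UnitAt V (1 : K) :=
  ⟨V.one_mem, by rw [inv_one]; exact V.one_mem⟩

theorem UnitAt.mul {V : ValuationSubring K} {x y : K} (hx : UnitAt V x) (hy : UnitAt V y) :
    UnitAt V (x * y) :=
  ⟨V.mul_mem _ _ hx.1 hy.1, by rw [mul_inv]; exact V.mul_mem _ _ hx.2 hy.2⟩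

theorem UnitAt.inv {V : ValuationSubring K} {x : K} (hx : UnitAt V x) : UnitAt V x⁻¹ :=
  ⟨hx.2, by rw [inv_inv]; exact hx.1⟩

theorem UnitAt.div {V : ValuationSubring K} {x y : K} (hx : UnitAt V x) (hy : UnitAt V y) :
    UnitAt V (x / y) := by
  rw [div_eq_mul_inv]; exact hx.mul hy.inv

theorem UnitAt.pow {V : ValuationSubring K} {x : K} (hx : UnitAt V x) (n : ℕ) :
    UnitAt V (x ^ n) :=
  ⟨V.pow_mem hx.1 n, by rw [← inv_pow]; exact V.pow_mem hx.2 n⟩

theorem UnitAt.zpow {V : ValuationSubring K} {x : K} (hx : UnitAt V x) (k : ℤ) :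
    UnitAt V (x ^ k) := by
  cases k with
  | ofNat n => simpa using hx.pow n
  | negSucc n =>
    rw [zpow_negSucc]
    exact (hx.pow (n + 1)).inv

theorem unitAt_of_units {V : ValuationSubring K} (u : (↥V)ˣ) : UnitAt V ((u : V) : K) := by
  refine ⟨(u : V).2, ?_⟩
  have h : ((u : V) : K) * (((u⁻¹ : (↥V)ˣ) : V) : K) = 1 := by
    have h1 : (u : V) * ((u⁻¹ : (↥V)ˣ) : V) = 1 := Units.mul_inv u
    have h2 := congrArg (Subtype.val : V → K) h1
    exact h2
  have : ((u : V) : K)⁻¹ = (((u⁻¹ : (↥V)ˣ) : V) : K) := inv_eq_of_mul_eq_one_right h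
  rw [this]
  exact ((u⁻¹ : (↥V)ˣ) : V).2

/-- Two valuation subrings which are the localisation of `O` at the same prime are equal. -/
theorem locDVR_unique {V V' : ValuationSubring K} {P : Ideal O}
    (h : IsLocDVR V P) (h' : IsLocDVR V' P) : V = V' := by
  ext x
  constructor
  · intro hx
    obtain ⟨r, s, hs, rfl⟩ := h.exists_frac x hx
    exact V'.mul_mem _ _ (h'.le r) (h'.inv_mem s hs)
  · intro hx
    obtain ⟨r, s, hs, rfl⟩ := h'.exists_frac x hx
    exact V.mul_mem _ _ (h.le r) (h.inv_mem s hs)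

theorem algebraMap_ne_zero_of_ne_zero {r : O} (hr : r ≠ 0) : algebraMap O K r ≠ 0 := fun h =>
  hr (IsFractionRing.injective O K (by rw [h, map_zero]))

/-- units of `V` coming from elements outside `P`. -/
theorem locDVR_unitAt_of_notMem {V : ValuationSubring K} {P : Ideal O} (h : IsLocDVR V P)
    {s : O} (hs : s ∉ P) : UnitAt V (algebraMap O K s) :=
  ⟨h.le s, h.inv_mem s hs⟩

/-- non-units of `V` are fractions with numerator in `P`. -/
theorem locDVR_exists_frac_of_not_unit {V : ValuationSubring K} {P : Ideal O}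
    (h : IsLocDVR V P) {x : K} (hx : x ∈ V) (hx' : x⁻¹ ∉ V) :
    ∃ r s : O, r ∈ P ∧ s ∉ P ∧ x = algebraMap O K r * (algebraMap O K s)⁻¹ := by
  obtain ⟨r, s, hs, e⟩ := h.exists_frac x hx
  refine ⟨r, s, ?_, hs, e⟩
  by_contra hr
  apply hx'
  rw [e, mul_inv, inv_inv]
  exact V.mul_mem _ _ (h.inv_mem r hr) (h.le s)

/-- **Local principality data** at the prime `P`. -/
structure LPData (w : O) (P : Ideal O) (d : O) : Prop where
  /-- the generator lies in `P` -/
  mem : d ∈ P
  /-- `a • P ≤ (d)` for a divisor `a` of a power of `w` -/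
  gen : ∃ (a : O) (N : ℕ), a ∣ w ^ N ∧ ∀ p ∈ P, ∃ q, a * p = d * q

theorem LPData.ne_zero {w : O} {P : Ideal O} {d : O} (h : LPData w P d) (hw : w ≠ 0)
    (hP : P ≠ ⊥) : d ≠ 0 := by
  rintro rfl
  obtain ⟨a, N, haN, hgen⟩ := h.gen
  have ha : a ≠ 0 := by
    rintro rfl
    exact pow_ne_zero N hw (zero_dvd_iff.mp haN)
  apply hP
  rw [eq_bot_iff]
  intro p hp
  obtain ⟨q, hq⟩ := hgen p hp
  rw [zero_mul] at hq
  rw [Ideal.mem_bot]
  exact (mul_eq_zero.mp hq).resolve_left ha

/-- the constant `a` of `LPData` is a unit at every horizontal prime. -/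
theorem not_mem_of_dvd_pow {w a : O} {N : ℕ} (haN : a ∣ w ^ N) {P : Ideal O} [P.IsPrime]
    (hw : w ∉ P) : a ∉ P := by
  intro ha
  obtain ⟨b, hb⟩ := haN
  have : w ^ N ∈ P := by rw [hb]; exact Ideal.mul_mem_right _ _ ha
  exact hw (Ideal.IsPrime.mem_of_pow_mem ‹P.IsPrime› N this)

/-- With LP at a horizontal prime `P`, the generator `d` generates the maximal ideal of `V`. -/
theorem LPData.exists_eq_mul {w : O} {P : Ideal O} {d : O} (h : LPData w P d)
    {V : ValuationSubring K} (hV : IsLocDVR V P) (hw : w ∉ P) {x : K} (hx : x ∈ V)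
    (hx' : x⁻¹ ∉ V) : ∃ y ∈ V, x = algebraMap O K d * y := by
  haveI := hV.prime
  obtain ⟨r, s, hr, hs, e⟩ := locDVR_exists_frac_of_not_unit hV hx hx'
  obtain ⟨a, N, haN, hgen⟩ := h.gen
  have ha : a ∉ P := not_mem_of_dvd_pow haN hw
  obtain ⟨q, hq⟩ := hgen r hr
  have ha0 : algebraMap O K a ≠ 0 := algebraMap_ne_zero_of_ne_zero (fun h0 => ha (h0 ▸ P.zero_mem))
  refine ⟨algebraMap O K q * (algebraMap O K a)⁻¹ * (algebraMap O K s)⁻¹,
    V.mul_mem _ _ (V.mul_mem _ _ (hV.le q) (hV.inv_mem a ha)) (hV.inv_mem s hs), ?_⟩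
  have hq' : algebraMap O K a * algebraMap O K r = algebraMap O K d * algebraMap O K q := by
    rw [← map_mul, ← map_mul, hq]
  have : algebraMap O K r = algebraMap O K d * algebraMap O K q * (algebraMap O K a)⁻¹ := by
    rw [← hq', mul_comm (algebraMap O K a), mul_assoc, mul_inv_cancel₀ ha0, mul_one]
  rw [e, this]
  ring

/-- With LP at a horizontal prime `P`, `d` is an irreducible element of `V`. -/
theorem LPData.irreducible {w : O} {P : Ideal O} {d : O} (h : LPData w P d) (hw0 : w ≠ 0)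
    {V : ValuationSubring K} (hV : IsLocDVR V P) (hw : w ∉ P) :
    haveI := hV.dvr
    Irreducible (⟨algebraMap O K d, hV.le d⟩ : V) := by
  haveI := hV.dvr
  rw [IsDiscreteValuationRing.irreducible_iff_uniformizer]
  have hd0 : d ≠ 0 := h.ne_zero hw0 hV.ne_bot
  have hdinv : (algebraMap O K d)⁻¹ ∉ V := hV.inv_not_mem d h.mem hd0
  apply le_antisymm
  · intro z hz
    rw [IsLocalRing.mem_maximalIdeal, mem_nonunits_iff] at hz
    have hz' : (z : K)⁻¹ ∉ V ∨ (z : K) = 0 := by
      by_cases hz0 : (z : K) = 0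
      · exact Or.inr hz0
      · left
        intro hinv
        apply hz
        refine IsUnit.of_mul_eq_one ⟨(z : K)⁻¹, hinv⟩ ?_
        apply Subtype.ext
        show (z : K) * (z : K)⁻¹ = 1
        exact mul_inv_cancel₀ hz0
    rw [Ideal.mem_span_singleton]
    rcases hz' with hz' | hz'
    · obtain ⟨y, hy, e⟩ := h.exists_eq_mul hV hw z.2 hz'
      exact ⟨⟨y, hy⟩, Subtype.ext e⟩
    · exact ⟨0, Subtype.ext (by simpa using hz')⟩
  · rw [Ideal.span_le]
    intro z hz
    rw [Set.mem_singleton_iff] at hz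
    rw [hz]
    show _ ∈ IsLocalRing.maximalIdeal V
    rw [IsLocalRing.mem_maximalIdeal, mem_nonunits_iff]
    intro hu
    obtain ⟨u, hu⟩ := hu
    apply hdinv
    have := (unitAt_of_units u).2
    rw [hu] at this
    exact this

/-- Every nonzero element of `K` is `unit × d ^ k` at a horizontal prime with LP. -/
theorem LPData.exists_zpow {w : O} {P : Ideal O} {d : O} (h : LPData w P d) (hw0 : w ≠ 0)
    {V : ValuationSubring K} (hV : IsLocDVR V P) (hw : w ∉ P) {x : K} (hx : x ≠ 0) :
    ∃ k : ℤ, UnitAt V (x / algebraMap O K d ^ k) := by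
  haveI := hV.dvr
  have hirr := h.irreducible hw0 hV hw
  have hd0 : algebraMap O K d ≠ 0 := algebraMap_ne_zero_of_ne_zero (h.ne_zero hw0 hV.ne_bot)
  have key : ∀ z : K, z ∈ V → z ≠ 0 → ∃ n : ℕ, UnitAt V (z / algebraMap O K d ^ n) := by
    intro z hz hz0
    have hz0' : (⟨z, hz⟩ : V) ≠ 0 := fun h0 => hz0 (congrArg Subtype.val h0)
    obtain ⟨n, u, hu⟩ := IsDiscreteValuationRing.eq_unit_mul_pow_irreducible hz0' hirr
    refine ⟨n, ?_⟩
    have e : z = ((u : V) : K) * algebraMap O K d ^ n := by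
      have := congrArg Subtype.val hu
      simpa using this
    have : z / algebraMap O K d ^ n = ((u : V) : K) := by
      rw [e, mul_div_assoc, div_self (pow_ne_zero n hd0), mul_one]
    rw [this]
    exact unitAt_of_units u
  rcases V.mem_or_inv_mem x with hxV | hxV
  · obtain ⟨n, hn⟩ := key x hxV hx
    exact ⟨n, by simpa using hn⟩
  · obtain ⟨n, hn⟩ := key x⁻¹ hxV (inv_ne_zero hx)
    refine ⟨-(n : ℤ), ?_⟩
    have : x / algebraMap O K d ^ (-(n : ℤ)) = (x⁻¹ / algebraMap O K d ^ n)⁻¹ := by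
      rw [zpow_neg, zpow_natCast, inv_div, div_inv_eq_mul, div_eq_mul_inv, inv_inv, mul_comm]
    rw [this]
    exact hn.inv

/-- The generator `d` is a unit at every other horizontal prime. -/
theorem LPData.unitAt_of_ne {w : O} {P : Ideal O} {d : O} (h : LPData w P d)
    (hP : P.IsPrime) (hP0 : P ≠ ⊥)
    {V' : ValuationSubring K} {P' : Ideal O} (hV' : IsLocDVR V' P') (hw' : w ∉ P')
    (hne : P' ≠ P) : UnitAt V' (algebraMap O K d) := by
  haveI := hV'.prime
  refine locDVR_unitAt_of_notMem hV' ?_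
  intro hd
  obtain ⟨a, N, haN, hgen⟩ := h.gen
  have ha : a ∉ P' := not_mem_of_dvd_pow haN hw'
  have hle : P ≤ P' := by
    intro p hp
    obtain ⟨q, hq⟩ := hgen p hp
    have : a * p ∈ P' := by rw [hq]; exact Ideal.mul_mem_right _ _ hd
    exact (Ideal.IsPrime.mem_or_mem ‹P'.IsPrime› this).resolve_left ha
  exact hne (hV'.height_one P hP hP0 hle).symm

end Fermat.Agent.A2.H673
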