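import Mathlib

/-!
# Cell A2, piece NODE-abs: deformation of a node, coordinate-free (helper673)

Everything is stated for arbitrary commutative rings with *elementwise* `ϖ`-adic
completeness/separatedness hypotheses (`PiComplete`, `PiSeparated`), so that it applies verbatim to
the completed local ring of a normal model at a crossing point of two components of the special
fibre; no power-series rings are involved.  Wrappers from `IsAdicComplete` are provided.

Main results (`φ : R →+* O` "constants", `ϖ : R`, `w = φ ϖ`):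

* `exists_node_normal_form`: if every `h : O` is `φ r + x a + y b + w h'` and `w ∣ x * y`, then
  there are `x' ≡ x`, `y' ≡ y (mod w)` and a constant `c ∈ ϖ R` with `x' * y' = φ c`.
* `exists_decomp_of_gen`: under the same generation hypothesis for `(z₁, z₂)`,
  every `h : O` is `φ r + z₁ a + z₂ b` (no remainder).
* `ker_section`: the kernel of a section `s : O →+* R` with `s z₁ = s z₂ = 0` is `(z₁, z₂)`.
* `ker_section_node`: at a node `x' y' = φ c`, the kernel of the section `x' ↦ α, y' ↦ β` is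
  generated by `x' - φ α` up to `ϖ`-power torsion: `φ α ^ 2 * (y' - φ β) ∈ (x' - φ α)`.
-/

set_option autoImplicit false

namespace Fermat.Agent.A2.H673

/-- `ϖ`-adic Cauchy completeness, elementwise form. -/
def PiComplete {O : Type*} [CommRing O] (w : O) : Prop :=
  ∀ f : ℕ → O, (∀ n, w ^ n ∣ f (n + 1) - f n) → ∃ L : O, ∀ n, w ^ n ∣ L - f n

/-- `ϖ`-adic separatedness, elementwise form. -/
def PiSeparated {O : Type*} [CommRing O] (w : O) : Prop :=
  ∀ z : O, (∀ n, w ^ n ∣ z) → z = 0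

section Wrappers

variable {O : Type*} [CommRing O] (w : O)

lemma span_pow_smul_top_eq (n : ℕ) :
    ((Ideal.span {w}) ^ n • (⊤ : Submodule O O) : Submodule O O) = Ideal.span {w ^ n} := by
  rw [Ideal.span_singleton_pow, smul_eq_mul, Ideal.mul_top]

lemma sModEq_span_pow_iff (n : ℕ) (a b : O) :
    a ≡ b [SMOD ((Ideal.span {w}) ^ n • (⊤ : Submodule O O) : Submodule O O)] ↔ w ^ n ∣ a - b := by
  rw [SModEq.sub_mem, span_pow_smul_top_eq, Ideal.mem_span_singleton]

theorem piSeparated_of_isHausdorff [IsHausdorff (Ideal.span {w}) O] : PiSeparated w := by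
  intro z hz
  apply IsHausdorff.haus (I := Ideal.span {w}) ‹_› z
  intro n
  rw [sModEq_span_pow_iff]
  simpa using hz n

lemma dvd_sub_of_le_of_step {f : ℕ → O} (hf : ∀ n, w ^ n ∣ f (n + 1) - f n) {m n : ℕ}
    (hmn : m ≤ n) : w ^ m ∣ f n - f m := by
  induction n, hmn using Nat.le_induction with
  | base => simp
  | succ n hmn ih =>
    have h1 : w ^ m ∣ f (n + 1) - f n := dvd_trans (pow_dvd_pow w hmn) (hf n)
    have e : f (n + 1) - f m = (f (n + 1) - f n) + (f n - f m) := by ring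
    rw [e]
    exact dvd_add h1 ih

theorem piComplete_of_isPrecomplete [IsPrecomplete (Ideal.span {w}) O] : PiComplete w := by
  intro f hf
  obtain ⟨L, hL⟩ := IsPrecomplete.prec (I := Ideal.span {w}) ‹_› (f := f) (by
    intro m n hmn
    rw [sModEq_span_pow_iff]
    have := dvd_sub_of_le_of_step w hf hmn
    have e : f m - f n = -(f n - f m) := by ring
    rw [e]
    exact (dvd_neg).mpr this)
  refine ⟨L, fun n => ?_⟩
  have := hL n
  rw [sModEq_span_pow_iff] at this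
  have e : L - f n = -(f n - L) := by ring
  rw [e]
  exact (dvd_neg).mpr this

theorem piComplete_of_isAdicComplete [IsAdicComplete (Ideal.span {w}) O] : PiComplete w :=
  piComplete_of_isPrecomplete w

theorem piSeparated_of_isAdicComplete [IsAdicComplete (Ideal.span {w}) O] : PiSeparated w :=
  piSeparated_of_isHausdorff w

end Wrappers

/-- Dependent choice in the form used below. -/
theorem exists_seq_of_step {α : Type*} (Inv : ℕ → α → Prop) (Rel : ℕ → α → α → Prop)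
    (a₀ : α) (h₀ : Inv 0 a₀)
    (step : ∀ n a, Inv n a → ∃ a', Inv (n + 1) a' ∧ Rel n a a') :
    ∃ f : ℕ → α, f 0 = a₀ ∧ (∀ n, Inv n (f n)) ∧ ∀ n, Rel n (f n) (f (n + 1)) := by
  classical
  let g : (n : ℕ) → {a : α // Inv n a} := fun n =>
    Nat.rec (motive := fun n => {a : α // Inv n a}) ⟨a₀, h₀⟩
      (fun n s => ⟨Classical.choose (step n s.1 s.2), (Classical.choose_spec (step n s.1 s.2)).1⟩) n
  refine ⟨fun n => (g n).1, rfl, fun n => (g n).2, fun n => ?_⟩
  exact (Classical.choose_spec (step n (g n).1 (g n).2)).2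

section Node

variable {R O : Type*} [CommRing R] [CommRing O] (φ : R →+* O) (ϖ : R)

/-- The generation hypothesis: `O = φ R + z₁ O + z₂ O + ϖ O`. -/
def Gen2 (z₁ z₂ : O) : Prop :=
  ∀ h : O, ∃ (r : R) (a b h' : O), h = φ r + z₁ * a + z₂ * b + φ ϖ * h'

variable {φ ϖ}

/-- The generation hypothesis only depends on `z₁, z₂` modulo `ϖ`. -/
theorem Gen2.congr {z₁ z₂ z₁' z₂' : O} (hgen : Gen2 φ ϖ z₁ z₂)
    (h₁ : φ ϖ ∣ z₁' - z₁) (h₂ : φ ϖ ∣ z₂' - z₂) : Gen2 φ ϖ z₁' z₂' := by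
  intro h
  obtain ⟨r, a, b, h', e⟩ := hgen h
  obtain ⟨d₁, hd₁⟩ := h₁
  obtain ⟨d₂, hd₂⟩ := h₂
  refine ⟨r, a, b, h' - d₁ * a - d₂ * b, ?_⟩
  have e1 : z₁ = z₁' - φ ϖ * d₁ := by rw [← hd₁]; ring
  have e2 : z₂ = z₂' - φ ϖ * d₂ := by rw [← hd₂]; ring
  rw [e, e1, e2]
  ring

/-- The generation hypothesis is insensitive to translation by constants in `ϖ R`. -/
theorem Gen2.sub_const {z₁ z₂ : O} (hgen : Gen2 φ ϖ z₁ z₂) {α β : R} (hα : ϖ ∣ α) (hβ : ϖ ∣ β) :
    Gen2 φ ϖ (z₁ - φ α) (z₂ - φ β) := by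
  refine hgen.congr ?_ ?_
  · have e : z₁ - φ α - z₁ = -φ α := by ring
    rw [e]
    exact (dvd_neg).mpr (map_dvd φ hα)
  · have e : z₂ - φ β - z₂ = -φ β := by ring
    rw [e]
    exact (dvd_neg).mpr (map_dvd φ hβ)

/-- internal state of the successive approximation for the node normal form. -/
structure NodeSt (R O : Type*) where
  /-- current first coordinate -/
  x : O
  /-- current second coordinate -/
  y : O
  /-- `x₀ = x + ϖ u` -/
  u : O
  /-- `y₀ = y + ϖ v` -/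
  v : O
  /-- current constant -/
  c : R
  /-- current remainder -/
  h : O

/-- **Deformation of a node (normal form).**  If `O = φ R + x O + y O + ϖ O`, `R` and `O` are
`ϖ`-adically complete, `O` is `ϖ`-adically separated and `ϖ ∣ x y`, then there are
`x' ≡ x`, `y' ≡ y` modulo `ϖ` and `c ∈ ϖ R` with `x' y' = c`. -/
theorem exists_node_normal_form (hR : PiComplete ϖ) (hO : PiComplete (φ ϖ))
    (hsep : PiSeparated (φ ϖ)) {x y : O} (hgen : Gen2 φ ϖ x y) (hxy : φ ϖ ∣ x * y) :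
    ∃ (x' y' : O) (c : R), φ ϖ ∣ x' - x ∧ φ ϖ ∣ y' - y ∧ ϖ ∣ c ∧ x' * y' = φ c := by
  obtain ⟨h₀, hh₀⟩ := hxy
  set w : O := φ ϖ with hw
  -- the invariant and the relation between consecutive states
  let Inv : ℕ → NodeSt R O → Prop := fun n s =>
    s.x * s.y = φ s.c + w ^ (n + 1) * s.h ∧ x = s.x + w * s.u ∧ y = s.y + w * s.v ∧ ϖ ∣ s.c
  let Rel : ℕ → NodeSt R O → NodeSt R O → Prop := fun n s s' =>
    w ^ (n + 1) ∣ s'.x - s.x ∧ w ^ (n + 1) ∣ s'.y - s.y ∧ ϖ ^ (n + 1) ∣ s'.c - s.c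
  have step : ∀ n s, Inv n s → ∃ s', Inv (n + 1) s' ∧ Rel n s s' := by
    rintro n s ⟨h1, h2, h3, h4⟩
    obtain ⟨r, a, b, h', e⟩ := hgen s.h
    refine ⟨⟨s.x - w ^ (n + 1) * b, s.y - w ^ (n + 1) * a, s.u + w ^ n * b, s.v + w ^ n * a,
      s.c + ϖ ^ (n + 1) * r, h' + s.u * a + s.v * b + w ^ n * a * b⟩, ⟨?_, ?_, ?_, ?_⟩, ?_, ?_, ?_⟩
    · change (s.x - w ^ (n + 1) * b) * (s.y - w ^ (n + 1) * a) =
        φ (s.c + ϖ ^ (n + 1) * r) + w ^ (n + 1 + 1) * (h' + s.u * a + s.v * b + w ^ n * a * b)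
      have e' : s.h = φ r + (s.x + w * s.u) * a + (s.y + w * s.v) * b + w * h' := by
        rw [← h2, ← h3]; exact e
      rw [map_add, map_mul, map_pow, ← hw]
      have : (s.x - w ^ (n + 1) * b) * (s.y - w ^ (n + 1) * a) =
          s.x * s.y - w ^ (n + 1) * (s.x * a + s.y * b) + w ^ (n + 1) * w ^ (n + 1) * (a * b) := by
        ring
      rw [this, h1, e']
      ring
    · change x = (s.x - w ^ (n + 1) * b) + w * (s.u + w ^ n * b)
      rw [h2]; ring
    · change y = (s.y - w ^ (n + 1) * a) + w * (s.v + w ^ n * a)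
      rw [h3]; ring
    · change ϖ ∣ s.c + ϖ ^ (n + 1) * r
      exact dvd_add h4 (dvd_mul_of_dvd_left (dvd_pow_self ϖ (Nat.succ_ne_zero n)) r)
    · change w ^ (n + 1) ∣ (s.x - w ^ (n + 1) * b) - s.x
      exact ⟨-b, by ring⟩
    · change w ^ (n + 1) ∣ (s.y - w ^ (n + 1) * a) - s.y
      exact ⟨-a, by ring⟩
    · change ϖ ^ (n + 1) ∣ (s.c + ϖ ^ (n + 1) * r) - s.c
      exact ⟨r, by ring⟩
  obtain ⟨f, hf0, hInv, hRel⟩ := exists_seq_of_step Inv Rel ⟨x, y, 0, 0, 0, h₀⟩
    ⟨by change x * y = φ 0 + w ^ (0 + 1) * h₀; rw [hh₀]; simp, by simp, by simp, dvd_zero ϖ⟩ step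
  -- limits
  obtain ⟨X, hX⟩ := hO (fun n => (f n).x) (fun n =>
    dvd_trans (pow_dvd_pow w (Nat.le_succ n)) (hRel n).1)
  obtain ⟨Y, hY⟩ := hO (fun n => (f n).y) (fun n =>
    dvd_trans (pow_dvd_pow w (Nat.le_succ n)) (hRel n).2.1)
  obtain ⟨C, hC⟩ := hR (fun n => (f n).c) (fun n =>
    dvd_trans (pow_dvd_pow ϖ (Nat.le_succ n)) (hRel n).2.2)
  refine ⟨X, Y, C, ?_, ?_, ?_, ?_⟩
  · have h1 := hX 1
    obtain ⟨_, h2, _, _⟩ := hInv 1
    have e : X - x = (X - (f 1).x) - w * (f 1).u := by rw [h2]; ring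
    rw [e]
    exact dvd_sub (by simpa using h1) (dvd_mul_right _ _)
  · have h1 := hY 1
    obtain ⟨_, _, h3, _⟩ := hInv 1
    have e : Y - y = (Y - (f 1).y) - w * (f 1).v := by rw [h3]; ring
    rw [e]
    exact dvd_sub (by simpa using h1) (dvd_mul_right _ _)
  · have h1 := hC 1
    obtain ⟨_, _, _, h4⟩ := hInv 1
    have e : C = (C - (f 1).c) + (f 1).c := by ring
    rw [e]
    exact dvd_add (by simpa using h1) h4
  · rw [← sub_eq_zero]
    apply hsep
    intro n
    obtain ⟨h1, _, _, _⟩ := hInv n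
    have e : X * Y - φ C = (X - (f n).x) * Y + (f n).x * (Y - (f n).y)
        + w ^ (n + 1) * (f n).h - φ (C - (f n).c) := by
      rw [map_sub]
      have : (f n).x * (f n).y = φ (f n).c + w ^ (n + 1) * (f n).h := h1
      linear_combination this
    rw [e]
    refine dvd_sub (dvd_add (dvd_add ?_ ?_) ?_) ?_
    · exact dvd_mul_of_dvd_left (hX n) _
    · exact dvd_mul_of_dvd_right (hY n) _
    · exact dvd_mul_of_dvd_left (pow_dvd_pow w (Nat.le_succ n)) _
    · have := map_dvd φ (hC n)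
      rwa [map_pow] at this

/-- internal state of the successive approximation for `exists_decomp_of_gen`. -/
structure DecompSt (R O : Type*) where
  /-- partial sum of constants -/
  r : R
  /-- partial sum of first coefficients -/
  a : O
  /-- partial sum of second coefficients -/
  b : O
  /-- current remainder -/
  h : O

/-- **Decomposition without remainder.**  If `O = φ R + z₁ O + z₂ O + ϖ O` and `R`, `O` are
`ϖ`-adically complete, `O` separated, then `O = φ R + z₁ O + z₂ O`. -/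
theorem exists_decomp_of_gen (hR : PiComplete ϖ) (hO : PiComplete (φ ϖ))
    (hsep : PiSeparated (φ ϖ)) {z₁ z₂ : O} (hgen : Gen2 φ ϖ z₁ z₂) (h : O) :
    ∃ (r : R) (a b : O), h = φ r + z₁ * a + z₂ * b := by
  set w : O := φ ϖ with hw
  let Inv : ℕ → DecompSt R O → Prop := fun n s =>
    h = φ s.r + z₁ * s.a + z₂ * s.b + w ^ n * s.h
  let Rel : ℕ → DecompSt R O → DecompSt R O → Prop := fun n s s' =>
    ϖ ^ n ∣ s'.r - s.r ∧ w ^ n ∣ s'.a - s.a ∧ w ^ n ∣ s'.b - s.b
  have step : ∀ n s, Inv n s → ∃ s', Inv (n + 1) s' ∧ Rel n s s' := by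
    intro n s h1
    obtain ⟨r, a, b, h', e⟩ := hgen s.h
    refine ⟨⟨s.r + ϖ ^ n * r, s.a + w ^ n * a, s.b + w ^ n * b, h'⟩, ?_, ?_, ?_, ?_⟩
    · change h = φ (s.r + ϖ ^ n * r) + z₁ * (s.a + w ^ n * a) + z₂ * (s.b + w ^ n * b)
        + w ^ (n + 1) * h'
      have h1' : h = φ s.r + z₁ * s.a + z₂ * s.b + w ^ n * s.h := h1
      rw [map_add, map_mul, map_pow, ← hw]
      rw [h1', e]
      ring
    · change ϖ ^ n ∣ (s.r + ϖ ^ n * r) - s.r
      exact ⟨r, by ring⟩
    · change w ^ n ∣ (s.a + w ^ n * a) - s.a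
      exact ⟨a, by ring⟩
    · change w ^ n ∣ (s.b + w ^ n * b) - s.b
      exact ⟨b, by ring⟩
  obtain ⟨f, hf0, hInv, hRel⟩ := exists_seq_of_step Inv Rel ⟨0, 0, 0, h⟩
    (by change h = φ 0 + z₁ * 0 + z₂ * 0 + w ^ 0 * h; simp) step
  obtain ⟨r, hr⟩ := hR (fun n => (f n).r) (fun n => (hRel n).1)
  obtain ⟨a, ha⟩ := hO (fun n => (f n).a) (fun n => (hRel n).2.1)
  obtain ⟨b, hb⟩ := hO (fun n => (f n).b) (fun n => (hRel n).2.2)
  refine ⟨r, a, b, ?_⟩
  rw [← sub_eq_zero]
  apply hsep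
  intro n
  have h1 : h = φ (f n).r + z₁ * (f n).a + z₂ * (f n).b + w ^ n * (f n).h := hInv n
  have e : h - (φ r + z₁ * a + z₂ * b) =
      w ^ n * (f n).h - φ (r - (f n).r) - z₁ * (a - (f n).a) - z₂ * (b - (f n).b) := by
    rw [map_sub]
    linear_combination h1
  rw [e]
  refine dvd_sub (dvd_sub (dvd_sub (dvd_mul_right _ _) ?_) ?_) ?_
  · have := map_dvd φ (hr n)
    rwa [map_pow] at this
  · exact dvd_mul_of_dvd_right (ha n) _
  · exact dvd_mul_of_dvd_right (hb n) _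

/-- **Kernel of a section.**  If `s : O →+* R` is a retraction of `φ` killing `z₁`, `z₂`, and
`O = φ R + z₁ O + z₂ O + ϖ O`, then `ker s = (z₁, z₂)`. -/
theorem ker_section (hR : PiComplete ϖ) (hO : PiComplete (φ ϖ))
    (hsep : PiSeparated (φ ϖ)) {z₁ z₂ : O} (hgen : Gen2 φ ϖ z₁ z₂)
    (s : O →+* R) (hs : ∀ r, s (φ r) = r) (h₁ : s z₁ = 0) (h₂ : s z₂ = 0)
    (h : O) (hh : s h = 0) : ∃ a b : O, h = z₁ * a + z₂ * b := by
  obtain ⟨r, a, b, e⟩ := exists_decomp_of_gen hR hO hsep hgen h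
  have : s h = r := by
    rw [e, map_add, map_add, map_mul, map_mul, h₁, h₂, hs]
    ring
  rw [hh] at this
  refine ⟨a, b, ?_⟩
  rw [e, ← this, map_zero]
  ring

/-- ideal form of `ker_section`. -/
theorem ker_section_eq_span (hR : PiComplete ϖ) (hO : PiComplete (φ ϖ))
    (hsep : PiSeparated (φ ϖ)) {z₁ z₂ : O} (hgen : Gen2 φ ϖ z₁ z₂)
    (s : O →+* R) (hs : ∀ r, s (φ r) = r) (h₁ : s z₁ = 0) (h₂ : s z₂ = 0) :
    RingHom.ker s = Ideal.span {z₁, z₂} := by
  apply le_antisymm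
  · intro h hh
    obtain ⟨a, b, e⟩ := ker_section hR hO hsep hgen s hs h₁ h₂ h hh
    rw [Ideal.mem_span_pair]
    exact ⟨a, b, by rw [e]; ring⟩
  · rw [Ideal.span_le]
    rintro z (rfl | rfl)
    · exact h₁
    · exact h₂

/-- At a node `x' y' = c`, with `α β = c`: `α² (y' - β) ∈ (x' - α)`.  Hence the horizontal prime
`(x' - α, y' - β)` is generated by `x' - α` as soon as `α` is invertible (e.g. after inverting
`ϖ`, when `α ≠ 0` in a discrete valuation ring). -/
theorem sq_mul_sub_mem_span {x' y' : O} {c α β : R} (hc : x' * y' = φ c) (hαβ : α * β = c) :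
    φ α ^ 2 * (y' - φ β) ∈ Ideal.span {x' - φ α} := by
  rw [Ideal.mem_span_singleton]
  refine ⟨-(φ α * y'), ?_⟩
  have hc' : x' * y' = φ α * φ β := by rw [hc, ← hαβ, map_mul]
  linear_combination (φ α) * hc'

end Node

end Fermat.Agent.A2.H673
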