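import Fermat.Agent.A2.H673.NodeThick

/-!
# Cell A2, piece NODE-abs, part 4: bridges for consumers (helper673)

* `TrueNode.of_primes`, `dvd_mul_of_primes`: the hypotheses `TrueNode`, `ϖ ∣ x y` from the two
  vertical primes `𝔭₁ = (y, w)`, `𝔭₂ = (x, w)` with `𝔭₁ ⊓ 𝔭₂ ≤ (w)` (reduced special fibre with
  two branches through the point).
* `Gen2.of_span`: `Gen2` from `𝔪 = (x, y, w)` and surjectivity of `R → O ⧸ 𝔪`.
* `local_generator_of_stage`: local principality with GIVEN stage coordinates `S, T`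
  (`S T = φ c + w^N h`), e.g. coordinates defined over the unramified base and therefore
  fixed by inertia; the local generator is `S - φ (s S)` or `T - φ (s T)`.
-/

set_option autoImplicit false

namespace Fermat.Agent.A2.H673

section Bridge

variable {R O : Type*} [CommRing R] [CommRing O] {φ : R →+* O} {ϖ : R}

/-- `ϖ ∣ x y` from the two vertical primes. -/
theorem dvd_mul_of_primes {x y : O} {p₁ p₂ : Ideal O}
    (hx : x ∈ p₂) (hy : y ∈ p₁) (hred : p₁ ⊓ p₂ ≤ Ideal.span {φ ϖ}) : φ ϖ ∣ x * y := by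
  rw [← Ideal.mem_span_singleton]
  exact hred ⟨Ideal.mul_mem_left _ _ hy, Ideal.mul_mem_right _ _ hx⟩

/-- `TrueNode` from the two vertical primes `𝔭₁ = (y, w)`, `𝔭₂ = (x, w)`. -/
theorem TrueNode.of_primes {x y : O} {p₁ p₂ : Ideal O} [p₁.IsPrime] [p₂.IsPrime]
    (h₁ : p₁ = Ideal.span {y, φ ϖ}) (h₂ : p₂ = Ideal.span {x, φ ϖ})
    (hred : p₁ ⊓ p₂ ≤ Ideal.span {φ ϖ}) (hx : x ∉ p₁) (hy : y ∉ p₂) : TrueNode φ ϖ x y := by
  have hxp : x ∈ p₂ := by rw [h₂]; exact Ideal.subset_span (by simp)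
  have hyp : y ∈ p₁ := by rw [h₁]; exact Ideal.subset_span (by simp)
  have hw₁ : φ ϖ ∈ p₁ := by rw [h₁]; exact Ideal.subset_span (by simp)
  have hw₂ : φ ϖ ∈ p₂ := by rw [h₂]; exact Ideal.subset_span (by simp)
  refine ⟨?_, ?_, ?_⟩
  · intro a b hab
    rw [← Ideal.mem_span_singleton]
    apply hred
    constructor
    · have e : x * a = (x * a - y * b) + y * b := by ring
      rw [e]
      refine Ideal.add_mem _ ?_ (Ideal.mul_mem_right _ _ hyp)
      obtain ⟨z, hz⟩ := hab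
      rw [hz]
      exact Ideal.mul_mem_right _ _ hw₁
    · exact Ideal.mul_mem_right _ _ hxp
  · intro g hg
    have h1 : x * g ∈ p₁ := by
      obtain ⟨z, hz⟩ := hg
      rw [hz]
      exact Ideal.mul_mem_right _ _ hw₁
    have h2 : g ∈ p₁ := (Ideal.IsPrime.mem_or_mem ‹p₁.IsPrime› h1).resolve_left hx
    rw [h₁, Ideal.mem_span_pair] at h2
    obtain ⟨a, b, e⟩ := h2
    exact ⟨a, b, by rw [← e]; ring⟩
  · intro g hg
    have h1 : y * g ∈ p₂ := by
      obtain ⟨z, hz⟩ := hg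
      rw [hz]
      exact Ideal.mul_mem_right _ _ hw₂
    have h2 : g ∈ p₂ := (Ideal.IsPrime.mem_or_mem ‹p₂.IsPrime› h1).resolve_left hy
    rw [h₂, Ideal.mem_span_pair] at h2
    obtain ⟨a, b, e⟩ := h2
    exact ⟨a, b, by rw [← e]; ring⟩

/-- `Gen2` from `𝔪 = (x, y, w)` and surjectivity of `R → O ⧸ 𝔪`. -/
theorem Gen2.of_span {x y : O} {m : Ideal O} (hm : m = Ideal.span {x, y, φ ϖ})
    (hres : ∀ h : O, ∃ r : R, h - φ r ∈ m) : Gen2 φ ϖ x y := by
  intro h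
  obtain ⟨r, hr⟩ := hres h
  rw [hm, Ideal.mem_span_insert] at hr
  obtain ⟨a, z, hz, e⟩ := hr
  rw [Ideal.mem_span_pair] at hz
  obtain ⟨b, c, e'⟩ := hz
  refine ⟨r, a, b, c, ?_⟩
  have : h = φ r + (a * x + z) := by rw [← e]; ring
  rw [this, ← e']
  ring

/-- **Local principality with given stage coordinates.**  `S T = φ c + w^N h` with `N ≥ 1`
(coordinates of some stage, e.g. defined over the unramified base), `s` a section through the
node whose kernel `P` is finitely generated and locally principal at `P` (witness `d`, `t`), and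
`ϖ^N ∤ s t`.  Then one of `S - φ (s S)`, `T - φ (s T)` generates `P` up to a constant dividing
`ϖ^N`. -/
theorem local_generator_of_stage [IsDomain O] (hdvr : DvrLike ϖ)
    {S T : O} (hgen : Gen2 φ ϖ S T) (hN : TrueNode φ ϖ S T)
    (hw0 : φ ϖ ≠ 0) (hjac : φ ϖ ∈ Ideal.jacobson (⊥ : Ideal O))
    {c : R} {h : O} {N : ℕ} (hN1 : 1 ≤ N) (hST : S * T = φ c + φ ϖ ^ N * h)
    (s : O →+* R) (hs : ∀ r, s (φ r) = r) (hsS : ϖ ∣ s S) (hsT : ϖ ∣ s T)
    (hfg : (RingHom.ker s).FG)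
    {d t : O} (hd : s d = 0) (hloc : ∀ p, s p = 0 → ∃ u, t * p = d * u)
    (ht : ¬ ϖ ^ N ∣ s t) :
    (s S ∣ ϖ ^ N ∧ ∀ p, s p = 0 → ∃ q, φ (s S) * p = (S - φ (s S)) * q) ∨
      (s T ∣ ϖ ^ N ∧ ∀ p, s p = 0 → ∃ q, φ (s T) * p = (T - φ (s T)) * q) := by
  obtain ⟨n, rfl⟩ : ∃ n, N = n + 1 := ⟨N - 1, (Nat.sub_add_cancel hN1).symm⟩
  have hkerI := ker_section_of_fg hgen s hs hsS hsT hfg hjac
  have hker : ∀ p, s p = 0 → ∃ a b, p = (S - φ (s S)) * a + (T - φ (s T)) * b := by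
    intro p hp
    have : p ∈ Ideal.span {S - φ (s S), T - φ (s T)} := by
      rw [← hkerI]; exact hp
    rw [Ideal.mem_span_pair] at this
    obtain ⟨a, b, e⟩ := this
    exact ⟨a, b, by rw [← e]; ring⟩
  have hgood : ¬ ϖ ^ (n + 1) ∣ s S ∨ ¬ ϖ ^ (n + 1) ∣ s T := by
    by_contra hcon
    rw [not_or, not_not, not_not] at hcon
    exact ht (dvd_section_of_bad hN hw0 hST s hs hker hd hloc hcon.1 hcon.2)
  rcases hgood with hg | hg
  · left
    obtain ⟨γ, hγ1, hγ2⟩ := hdvr _ _ hg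
    have hγjac : φ γ ∈ Ideal.jacobson (⊥ : Ideal O) := by
      obtain ⟨γ', rfl⟩ := hγ1
      rw [map_mul]
      exact Ideal.mul_mem_right _ _ hjac
    obtain ⟨q, hq⟩ := node_LP hST s hs hker hγ2 (isUnit_one_sub_mul_of_mem_jacobson hγjac)
    refine ⟨⟨γ, hγ2⟩, ?_⟩
    intro p hp
    obtain ⟨a, b, e⟩ := hker p hp
    exact ⟨φ (s S) * a + q * b, by rw [e]; linear_combination b * hq⟩
  · right
    obtain ⟨γ, hγ1, hγ2⟩ := hdvr _ _ hg
    have hγjac : φ γ ∈ Ideal.jacobson (⊥ : Ideal O) := by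
      obtain ⟨γ', rfl⟩ := hγ1
      rw [map_mul]
      exact Ideal.mul_mem_right _ _ hjac
    have hTS : T * S = φ c + φ ϖ ^ (n + 1) * h := by rw [mul_comm]; exact hST
    have hker' : ∀ p, s p = 0 → ∃ a b, p = (T - φ (s T)) * a + (S - φ (s S)) * b := by
      intro p hp
      obtain ⟨a, b, e⟩ := hker p hp
      exact ⟨b, a, by rw [e]; ring⟩
    obtain ⟨q, hq⟩ := node_LP hTS s hs hker' hγ2 (isUnit_one_sub_mul_of_mem_jacobson hγjac)
    refine ⟨⟨γ, hγ2⟩, ?_⟩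
    intro p hp
    obtain ⟨a, b, e⟩ := hker p hp
    exact ⟨q * a + φ (s T) * b, by rw [e]; linear_combination a * hq⟩

end Bridge

end Fermat.Agent.A2.H673
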