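import Fermat.Agent.A2.H673.NodeAbs

/-!
# Cell A2, piece NODE-abs, part 2: local principality at a node WITHOUT completion (helper673)

`φ : R →+* O` ("constants", e.g. `R = A'` a discrete valuation ring with uniformiser `ϖ`,
`O` the local ring of the normal model at a closed point `z` of the special fibre),
`x y : O` with `O = φ R + x O + y O + ϖ O` (`Gen2 φ ϖ x y`) and `ϖ ∣ x y` (crossing point; a smooth
point is the degenerate case `ϖ ∣ y`).

* `exists_node_approx`: truncated normal form, NO completeness: for every `n` there are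
  `S ≡ x`, `T ≡ y (mod ϖ)`, `c ∈ ϖ R`, `h` with `S T = φ c + ϖ^(n+1) h`.
* `ker_section_of_fg`: (Nakayama) the kernel `P` of a section `s : O →+* R` of `φ` is
  `(S - s S, T - s T)` as soon as `P` is finitely generated and `ϖ` lies in the Jacobson radical.
* `node_LP`: **local principality**.  If `S T = φ c + ϖ^(n+1) h`, and `α := s S` divides `ϖ^(n+1)`
  with quotient `γ` in the Jacobson radical, then `α (T - s T) ∈ (S - α)`; hence
  `α • P ≤ (S - α) ≤ P`: the horizontal prime `P` is generated by `S - α` after inverting `ϖ`.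
* `section_unique_of_bad`: a section which is "bad" for all stages (`ϖ^(n+1) ∣ s S_n, s T_n` for all
  `n`) is unique, so at most one section through the point escapes `node_LP`.
-/

set_option autoImplicit false

namespace Fermat.Agent.A2.H673

section Approx

variable {R O : Type*} [CommRing R] [CommRing O] {φ : R →+* O} {ϖ : R}

/-- **Truncated node normal form** (no completeness needed). -/
theorem exists_node_approx {x y : O} (hgen : Gen2 φ ϖ x y) (hxy : φ ϖ ∣ x * y) (n : ℕ) :
    ∃ (S T : O) (c : R) (h : O), φ ϖ ∣ S - x ∧ φ ϖ ∣ T - y ∧ ϖ ∣ c ∧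
      S * T = φ c + φ ϖ ^ (n + 1) * h := by
  induction n with
  | zero =>
    obtain ⟨h₀, hh₀⟩ := hxy
    exact ⟨x, y, 0, h₀, by simp, by simp, dvd_zero _, by rw [hh₀]; simp⟩
  | succ n ih =>
    obtain ⟨S, T, c, h, hS, hT, hc, e⟩ := ih
    obtain ⟨r, a, b, h', e'⟩ := (hgen.congr hS hT) h
    refine ⟨S - φ ϖ ^ (n + 1) * b, T - φ ϖ ^ (n + 1) * a, c + ϖ ^ (n + 1) * r,
      h' + φ ϖ ^ n * a * b, ?_, ?_, ?_, ?_⟩
    · have e1 : S - φ ϖ ^ (n + 1) * b - x = (S - x) - φ ϖ * (φ ϖ ^ n * b) := by ring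
      rw [e1]
      exact dvd_sub hS (dvd_mul_right _ _)
    · have e1 : T - φ ϖ ^ (n + 1) * a - y = (T - y) - φ ϖ * (φ ϖ ^ n * a) := by ring
      rw [e1]
      exact dvd_sub hT (dvd_mul_right _ _)
    · exact dvd_add hc (dvd_mul_of_dvd_left (dvd_pow_self ϖ (Nat.succ_ne_zero n)) r)
    · rw [map_add, map_mul, map_pow]
      have : (S - φ ϖ ^ (n + 1) * b) * (T - φ ϖ ^ (n + 1) * a) =
          S * T - φ ϖ ^ (n + 1) * (S * a + T * b) + φ ϖ ^ (n + 1) * φ ϖ ^ (n + 1) * (a * b) := by
        ring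
      rw [this, e, e']
      ring

end Approx

section Section

variable {R O : Type*} [CommRing R] [CommRing O] {φ : R →+* O} {ϖ : R}

/-- **Kernel of a section (Nakayama form).**  `O = φ R + S O + T O + ϖ O`, `s` a retraction of
`φ` with `s S, s T ∈ ϖ R`, `ker s` finitely generated and `ϖ` in the Jacobson radical of `O`.
Then `ker s = (S - s S, T - s T)`. -/
theorem ker_section_of_fg {S T : O} (hgen : Gen2 φ ϖ S T)
    (s : O →+* R) (hs : ∀ r, s (φ r) = r) (hS : ϖ ∣ s S) (hT : ϖ ∣ s T)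
    (hfg : (RingHom.ker s).FG) (hjac : φ ϖ ∈ Ideal.jacobson (⊥ : Ideal O)) :
    RingHom.ker s = Ideal.span {S - φ (s S), T - φ (s T)} := by
  have hgen' := hgen.sub_const hS hT
  apply le_antisymm
  · apply Submodule.le_of_le_smul_of_le_jacobson_bot (I := Ideal.span {φ ϖ}) hfg
    · rw [Ideal.span_le]
      intro z hz
      rw [Set.mem_singleton_iff] at hz
      rw [hz]
      exact hjac
    · intro p hp
      rw [RingHom.mem_ker] at hp
      obtain ⟨r, a, b, h', e⟩ := hgen' p
      have hr : r = -(ϖ * s h') := by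
        have := congrArg s e
        rw [hp, map_add, map_add, map_add, map_mul, map_mul, map_mul, map_sub, map_sub, hs, hs,
          hs, hs] at this
        have h0 : (0 : R) = r + ϖ * s h' := by
          rw [this]; ring
        linear_combination -h0
      have e2 : p = ((S - φ (s S)) * a + (T - φ (s T)) * b) + φ ϖ * (h' - φ (s h')) := by
        rw [e, hr, map_neg, map_mul]
        ring
      rw [e2]
      apply Submodule.add_mem_sup
      · rw [Ideal.mem_span_pair]
        exact ⟨a, b, by ring⟩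
      · rw [smul_eq_mul]
        apply Ideal.mul_mem_mul (Ideal.mem_span_singleton_self _)
        rw [RingHom.mem_ker, map_sub, hs, sub_self]
  · rw [Ideal.span_le]
    rintro z (rfl | rfl)
    · change _ ∈ RingHom.ker s
      rw [RingHom.mem_ker, map_sub, hs, sub_self]
    · change _ ∈ RingHom.ker s
      rw [RingHom.mem_ker, map_sub, hs, sub_self]

/-- Noetherian version of `ker_section_of_fg`. -/
theorem ker_section_of_noetherian [IsNoetherianRing O] {S T : O} (hgen : Gen2 φ ϖ S T)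
    (s : O →+* R) (hs : ∀ r, s (φ r) = r) (hS : ϖ ∣ s S) (hT : ϖ ∣ s T)
    (hjac : φ ϖ ∈ Ideal.jacobson (⊥ : Ideal O)) :
    RingHom.ker s = Ideal.span {S - φ (s S), T - φ (s T)} :=
  ker_section_of_fg hgen s hs hS hT (IsNoetherian.noetherian _) hjac

/-- **Local principality at a node.**  Let `S T = φ c + ϖ^(n+1) h`, `s` a retraction of `φ` whose
kernel is `(S - α, T - β)` (`α = s S`, `β = s T`), and assume `ϖ^(n+1) = α γ` with `1 - φ γ b` a
unit for all `b` (e.g. `φ γ` in the Jacobson radical: this is `v(α) ≤ n`).  Then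
`φ α * (T - φ β) ∈ (S - φ α)`. -/
theorem node_LP {S T : O} {c : R} {h : O} {n : ℕ}
    (hST : S * T = φ c + φ ϖ ^ (n + 1) * h)
    (s : O →+* R) (hs : ∀ r, s (φ r) = r)
    (hker : ∀ p, s p = 0 → ∃ a b, p = (S - φ (s S)) * a + (T - φ (s T)) * b)
    {γ : R} (hγ : ϖ ^ (n + 1) = s S * γ) (hunit : ∀ b : O, IsUnit (1 - φ γ * b)) :
    ∃ q : O, φ (s S) * (T - φ (s T)) = (S - φ (s S)) * q := by
  set α := s S with hα
  set β := s T with hβ
  -- `α β = c + ϖ^(n+1) s h`
  have h1 : α * β = c + ϖ ^ (n + 1) * s h := by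
    have := congrArg s hST
    rw [map_mul, map_add, map_mul, map_pow, hs, hs] at this
    exact this
  obtain ⟨a, b, hab⟩ := hker (h - φ (s h)) (by rw [map_sub, hs, sub_self])
  have hw : φ ϖ ^ (n + 1) = φ α * φ γ := by rw [← map_pow, hγ, map_mul]
  -- the key identity
  have key : φ α * (1 - φ γ * b) * (T - φ β) = (S - φ α) * (φ ϖ ^ (n + 1) * a - T) := by
    have h1' : φ α * φ β = φ c + φ ϖ ^ (n + 1) * φ (s h) := by
      rw [← map_mul, h1, map_add, map_mul, map_pow]
    have hh : h = φ (s h) + ((S - φ α) * a + (T - φ β) * b) := by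
      rw [← hab]; ring
    have e3 : S * T = φ α * φ β + φ ϖ ^ (n + 1) * ((S - φ α) * a + (T - φ β) * b) := by
      rw [hST, h1']
      nth_rewrite 1 [hh]
      ring
    have e4 : φ α * (1 - φ γ * b) * (T - φ β) = (φ α - φ ϖ ^ (n + 1) * b) * (T - φ β) := by
      rw [hw]; ring
    rw [e4]
    linear_combination e3
  obtain ⟨u, hu⟩ := hunit b
  refine ⟨(φ ϖ ^ (n + 1) * a - T) * ↑u⁻¹, ?_⟩
  have : φ α * (T - φ β) = φ α * (1 - φ γ * b) * (T - φ β) * ↑u⁻¹ := by
    rw [← hu]
    have : (↑u : O) * ↑u⁻¹ = 1 := Units.mul_inv u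
    linear_combination (-(φ α * (T - φ β))) * this
  rw [this, key]
  ring

/-- `1 - j b` is a unit for `j` in the Jacobson radical. -/
theorem isUnit_one_sub_mul_of_mem_jacobson {j : O} (hj : j ∈ Ideal.jacobson (⊥ : Ideal O))
    (b : O) : IsUnit (1 - j * b) := by
  have h1 : -(j * b) ∈ Ideal.jacobson (⊥ : Ideal O) :=
    neg_mem (Ideal.mul_mem_right _ _ hj)
  have := Ideal.isUnit_of_sub_one_mem_jacobson_bot (1 - j * b) (by
    have e : 1 - j * b - 1 = -(j * b) := by ring
    rw [e]; exact h1)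
  exact this

/-- Ideal form of `node_LP`: `α • P ≤ (S - α) ≤ P` for the kernel `P` of the section. -/
theorem node_LP_ideal {S T : O} {c : R} {h : O} {n : ℕ}
    (hST : S * T = φ c + φ ϖ ^ (n + 1) * h)
    (s : O →+* R) (hs : ∀ r, s (φ r) = r)
    (hker : RingHom.ker s = Ideal.span {S - φ (s S), T - φ (s T)})
    {γ : R} (hγ : ϖ ^ (n + 1) = s S * γ) (hjac : φ γ ∈ Ideal.jacobson (⊥ : Ideal O)) :
    Ideal.span {φ (s S)} * RingHom.ker s ≤ Ideal.span {S - φ (s S)} ∧
      Ideal.span {S - φ (s S)} ≤ RingHom.ker s := by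
  have hker' : ∀ p, s p = 0 → ∃ a b, p = (S - φ (s S)) * a + (T - φ (s T)) * b := by
    intro p hp
    have : p ∈ Ideal.span {S - φ (s S), T - φ (s T)} := by
      rw [← hker]; exact hp
    rw [Ideal.mem_span_pair] at this
    obtain ⟨a, b, e⟩ := this
    exact ⟨a, b, by rw [← e]; ring⟩
  obtain ⟨q, hq⟩ := node_LP hST s hs hker' hγ (isUnit_one_sub_mul_of_mem_jacobson hjac)
  constructor
  · rw [Ideal.span_singleton_mul_le_iff]
    intro p hp
    obtain ⟨a, b, e⟩ := hker' p hp
    rw [Ideal.mem_span_singleton]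
    refine ⟨φ (s S) * a + q * b, ?_⟩
    rw [e]
    linear_combination b * hq
  · rw [Ideal.span_le]
    intro z hz
    rw [Set.mem_singleton_iff] at hz
    rw [hz]
    change _ ∈ RingHom.ker s
    rw [RingHom.mem_ker, map_sub, hs, sub_self]

/-- Two sections which agree on `S` and `T` modulo every power of `ϖ` are equal, provided the
kernel of the first is `(S_n - s S_n, T_n - s T_n)` for a family of coordinates `S_n, T_n` and
`R` is `ϖ`-adically separated.  In particular a section which is "bad at every stage"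
(`ϖ^(n+1) ∣ s S_n` and `ϖ^(n+1) ∣ s T_n` for all `n`) is unique. -/
theorem section_unique_of_bad (hsep : PiSeparated ϖ) (Sn Tn : ℕ → O)
    (s s' : O →+* R) (hs : ∀ r, s (φ r) = r) (hs' : ∀ r, s' (φ r) = r)
    (hker : ∀ n p, s p = 0 → ∃ a b, p = (Sn n - φ (s (Sn n))) * a + (Tn n - φ (s (Tn n))) * b)
    (hS : ∀ n, ϖ ^ (n + 1) ∣ s (Sn n)) (hT : ∀ n, ϖ ^ (n + 1) ∣ s (Tn n))
    (hS' : ∀ n, ϖ ^ (n + 1) ∣ s' (Sn n)) (hT' : ∀ n, ϖ ^ (n + 1) ∣ s' (Tn n)) :
    s' = s := by
  have key : ∀ p, s p = 0 → s' p = 0 := by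
    intro p hp
    apply hsep
    intro n
    obtain ⟨a, b, e⟩ := hker n p hp
    have h1 : ϖ ^ (n + 1) ∣ s' p := by
      rw [e, map_add, map_mul, map_mul, map_sub, map_sub, hs', hs']
      exact dvd_add (dvd_mul_of_dvd_left (dvd_sub (hS' n) (hS n)) _)
        (dvd_mul_of_dvd_left (dvd_sub (hT' n) (hT n)) _)
    exact dvd_trans (pow_dvd_pow ϖ (Nat.le_succ n)) h1
  ext p
  have := key (p - φ (s p)) (by rw [map_sub, hs, sub_self])
  rw [map_sub, hs'] at this
  exact sub_eq_zero.mp this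

end Section

end Fermat.Agent.A2.H673
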