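import Mathlib
import Fermat.Agent.A2.H673.NodeBridge
import Fermat.Agent.A2.H673.LocChart

/-!
# Cell A2, route S, piece POINT-CHART (helper673): `PointKind` from chart-level node data

`B : Subalgebra R F` a chart, `𝔪` a prime of `B` containing `w = ϖ` with residue field `R / ϖ`
(`∀ b, ∃ r, b - r ∈ 𝔪`), `𝔭₁, 𝔭₂` the two components of the special fibre
(`𝔭₁ ⊓ 𝔭₂ ≤ (w)`, `w ∈ 𝔭ᵢ`).

The chart-level data "locally at `𝔪`" are exactly the conclusions of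
`H168.exists_node_gens` / `H168.exists_smooth_gen` (M5-abs):

* node: `x ∈ 𝔭₂`, `y ∈ 𝔭₁`, and for `z` in `𝔪`, `𝔭₁`, `𝔭₂` some `t ∉ 𝔪` with
  `t z ∈ (x, y, w)`, `(y, w)`, `(x, w)`;
* smooth point: `s ∈ 𝔪` and for `z ∈ 𝔪` some `t ∉ 𝔪` with `t z ∈ (s, w)`.

Output: `PointKind (locMap B 𝔪) ϖ` for the local ring `H849.locAt F 𝔪`, the hypothesis of
`chart_locfact`.
-/

set_option autoImplicit false
set_option linter.unusedSectionVars false
set_option linter.style.haveILetI false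

namespace Fermat.Agent.A2.H673

open Fermat.Agent.A2.H849

section PointChart

variable {R : Type*} [CommRing R] [IsDomain R]
variable {F : Type*} [Field F] [Algebra R F]
variable {B : Subalgebra R F} [IsFractionRing B F]
variable {𝔪 : Ideal B} [𝔪.IsPrime]

/-- the image in `B_𝔪` of an ideal which is generated by `T` locally at `𝔪`. -/
theorem map_eq_span_of_locally {𝔞 : Ideal B} {T : Set B} (hT : T ⊆ 𝔞)
    (h : ∀ z ∈ 𝔞, ∃ t, t ∉ 𝔪 ∧ t * z ∈ Ideal.span T) :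
    𝔞.map (algebraMap B (locAt F 𝔪)) = Ideal.span (algebraMap B (locAt F 𝔪) '' T) := by
  apply le_antisymm
  · rw [Ideal.map_le_iff_le_comap]
    intro z hz
    obtain ⟨t, ht, htz⟩ := h z hz
    rw [Ideal.mem_comap]
    have hu : IsUnit (algebraMap B (locAt F 𝔪) t) :=
      IsLocalization.map_units (locAt F 𝔪) (⟨t, ht⟩ : 𝔪.primeCompl)
    have h1 : algebraMap B (locAt F 𝔪) (t * z) ∈
        (Ideal.span T).map (algebraMap B (locAt F 𝔪)) := Ideal.mem_map_of_mem _ htz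
    rw [map_mul, Ideal.map_span] at h1
    exact (Ideal.unit_mul_mem_iff_mem _ hu).1 h1
  · rw [Ideal.span_le]
    rintro _ ⟨a, ha, rfl⟩
    exact Ideal.mem_map_of_mem _ (hT ha)

/-- membership in the image of a prime `𝔭 ≤ 𝔪` can be tested in the chart. -/
theorem algebraMap_mem_map_iff {𝔭 : Ideal B} [𝔭.IsPrime] (h𝔭 : 𝔭 ≤ 𝔪) (b : B) :
    algebraMap B (locAt F 𝔪) b ∈ 𝔭.map (algebraMap B (locAt F 𝔪)) ↔ b ∈ 𝔭 := by
  have hd : Disjoint (𝔪.primeCompl : Set B) (𝔭 : Set B) := by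
    rw [Set.disjoint_left]
    intro x hx hx𝔭
    exact hx (h𝔭 hx𝔭)
  have := IsLocalization.under_map_of_isPrime_disjoint 𝔪.primeCompl (locAt F 𝔪) ‹𝔭.IsPrime› hd
  constructor
  · intro hb
    rw [← this]
    exact hb
  · intro hb
    exact Ideal.mem_map_of_mem _ hb

theorem isPrime_map_of_le {𝔭 : Ideal B} [𝔭.IsPrime] (h𝔭 : 𝔭 ≤ 𝔪) :
    (𝔭.map (algebraMap B (locAt F 𝔪))).IsPrime := by
  have hd : Disjoint (𝔪.primeCompl : Set B) (𝔭 : Set B) := by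
    rw [Set.disjoint_left]
    intro x hx hx𝔭
    exact hx (h𝔭 hx𝔭)
  exact IsLocalization.isPrime_of_isPrime_disjoint 𝔪.primeCompl (locAt F 𝔪) 𝔭 ‹𝔭.IsPrime› hd

/-- the special fibre of `B_𝔪` is reduced with the two branches `𝔭₁ B_𝔪`, `𝔭₂ B_𝔪`. -/
theorem map_inf_map_le {𝔭₁ 𝔭₂ : Ideal B} {w : B} (hred : 𝔭₁ ⊓ 𝔭₂ ≤ Ideal.span {w}) :
    𝔭₁.map (algebraMap B (locAt F 𝔪)) ⊓ 𝔭₂.map (algebraMap B (locAt F 𝔪)) ≤
      Ideal.span {algebraMap B (locAt F 𝔪) w} := by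
  rintro z ⟨h1, h2⟩
  rw [SetLike.mem_coe, IsLocalization.mem_map_algebraMap_iff 𝔪.primeCompl] at h1 h2
  obtain ⟨⟨a₁, s₁⟩, e₁⟩ := h1
  obtain ⟨⟨a₂, s₂⟩, e₂⟩ := h2
  have hinj : Function.Injective (algebraMap B (locAt F 𝔪)) :=
    IsLocalization.injective (locAt F 𝔪) 𝔪.primeCompl_le_nonZeroDivisors
  have hmem : (a₁ : B) * (s₂ : B) ∈ 𝔭₁ ⊓ 𝔭₂ := by
    refine ⟨Ideal.mul_mem_right _ _ a₁.2, ?_⟩
    have : (a₁ : B) * (s₂ : B) = (a₂ : B) * (s₁ : B) := by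
      apply hinj
      rw [map_mul, map_mul, ← e₁, ← e₂]
      ring
    rw [this]
    exact Ideal.mul_mem_right _ _ a₂.2
  obtain ⟨c, hc⟩ := Ideal.mem_span_singleton.1 (hred hmem)
  have hu₁ : IsUnit (algebraMap B (locAt F 𝔪) (s₁ : B)) :=
    IsLocalization.map_units (locAt F 𝔪) s₁
  have hu₂ : IsUnit (algebraMap B (locAt F 𝔪) (s₂ : B)) :=
    IsLocalization.map_units (locAt F 𝔪) s₂
  have key : algebraMap B (locAt F 𝔪) (s₁ : B) * algebraMap B (locAt F 𝔪) (s₂ : B) * z ∈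
      Ideal.span {algebraMap B (locAt F 𝔪) w} := by
    have : algebraMap B (locAt F 𝔪) (s₁ : B) * algebraMap B (locAt F 𝔪) (s₂ : B) * z =
        algebraMap B (locAt F 𝔪) w * algebraMap B (locAt F 𝔪) c := by
      rw [← map_mul (algebraMap B (locAt F 𝔪)) w c, ← hc, map_mul, ← e₁]
      ring
    rw [this]
    exact Ideal.mul_mem_right _ _ (Ideal.mem_span_singleton_self _)
  exact (Ideal.unit_mul_mem_iff_mem _ (hu₁.mul hu₂)).1 key

/-- residue field of `B_𝔪`. -/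
theorem exists_sub_mem_maximalIdeal (ϖ : R) (hdvr : DvrLike ϖ) (hϖ0 : ϖ ≠ 0)
    (hw𝔪 : algebraMap R B ϖ ∈ 𝔪) (hres : ∀ b : B, ∃ r : R, b - algebraMap R B r ∈ 𝔪)
    (h : locAt F 𝔪) :
    ∃ r : R, h - locMap B 𝔪 r ∈ IsLocalRing.maximalIdeal (locAt F 𝔪) := by
  haveI : (IsLocalRing.maximalIdeal (locAt F 𝔪)).IsPrime :=
    (IsLocalRing.maximalIdeal.isMaximal _).isPrime
  refine exists_sub_mem_of_chart ϖ hdvr hϖ0 hw𝔪 _ (fun b => ?_) h
  obtain ⟨r, hr⟩ := hres b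
  refine ⟨r, ?_⟩
  have : algebraMap B (locAt F 𝔪) b - locMap B 𝔪 r =
      algebraMap B (locAt F 𝔪) (b - algebraMap R B r) := by
    rw [map_sub]; rfl
  rw [this]
  exact (IsLocalization.AtPrime.to_map_mem_maximal_iff (locAt F 𝔪) 𝔪 _).2 hr

/-- **POINT-CHART, node.**  `PointKind` from the conclusions of `H168.exists_node_gens`. -/
theorem pointKind_of_node (ϖ : R) (hdvr : DvrLike ϖ) (hϖ0 : ϖ ≠ 0)
    (hw𝔪 : algebraMap R B ϖ ∈ 𝔪) (hres : ∀ b : B, ∃ r : R, b - algebraMap R B r ∈ 𝔪)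
    {𝔭₁ 𝔭₂ : Ideal B} [𝔭₁.IsPrime] [𝔭₂.IsPrime] (h1 : 𝔭₁ < 𝔪) (h2 : 𝔭₂ < 𝔪)
    (hw₁ : algebraMap R B ϖ ∈ 𝔭₁) (hw₂ : algebraMap R B ϖ ∈ 𝔭₂)
    (hred : 𝔭₁ ⊓ 𝔭₂ ≤ Ideal.span {algebraMap R B ϖ})
    {x y : B} (hx : x ∈ 𝔭₂) (hy : y ∈ 𝔭₁)
    (hm : ∀ z ∈ 𝔪, ∃ t, t ∉ 𝔪 ∧ t * z ∈ Ideal.span {x, y, algebraMap R B ϖ})
    (hp1 : ∀ z ∈ 𝔭₁, ∃ t, t ∉ 𝔪 ∧ t * z ∈ Ideal.span {y, algebraMap R B ϖ})
    (hp2 : ∀ z ∈ 𝔭₂, ∃ t, t ∉ 𝔪 ∧ t * z ∈ Ideal.span {x, algebraMap R B ϖ}) :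
    PointKind (locMap B 𝔪) ϖ := by
  set ι := algebraMap B (locAt F 𝔪) with hι
  have hφ : locMap B 𝔪 ϖ = ι (algebraMap R B ϖ) := rfl
  haveI := isPrime_map_of_le (F := F) h1.le
  haveI := isPrime_map_of_le (F := F) h2.le
  -- the images of the ideals
  have hM : IsLocalRing.maximalIdeal (locAt F 𝔪) = Ideal.span {ι x, ι y, locMap B 𝔪 ϖ} := by
    rw [← IsLocalization.AtPrime.map_eq_maximalIdeal 𝔪 (locAt F 𝔪),
      map_eq_span_of_locally (T := {x, y, algebraMap R B ϖ}) ?_ hm]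
    · congr 1
      simp only [Set.image_insert_eq, Set.image_singleton]
      rfl
    · rintro z (rfl | rfl | rfl)
      · exact h2.le hx
      · exact h1.le hy
      · exact hw𝔪
  have hP1 : 𝔭₁.map ι = Ideal.span {ι y, locMap B 𝔪 ϖ} := by
    rw [map_eq_span_of_locally (T := {y, algebraMap R B ϖ}) ?_ hp1]
    · congr 1
      simp only [Set.image_insert_eq, Set.image_singleton]
      rfl
    · rintro z (rfl | rfl)
      · exact hy
      · exact hw₁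
  have hP2 : 𝔭₂.map ι = Ideal.span {ι x, locMap B 𝔪 ϖ} := by
    rw [map_eq_span_of_locally (T := {x, algebraMap R B ϖ}) ?_ hp2]
    · congr 1
      simp only [Set.image_insert_eq, Set.image_singleton]
      rfl
    · rintro z (rfl | rfl)
      · exact hx
      · exact hw₂
  have hredL : 𝔭₁.map ι ⊓ 𝔭₂.map ι ≤ Ideal.span {locMap B 𝔪 ϖ} := map_inf_map_le hred
  -- the branches are distinct
  have hxn : x ∉ 𝔭₁ := by
    intro hx1
    apply h1.not_ge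
    intro z hz
    obtain ⟨t, ht, htz⟩ := hm z hz
    have : t * z ∈ 𝔭₁ := by
      refine (Ideal.span_le.2 ?_) htz
      rintro a (rfl | rfl | rfl)
      · exact hx1
      · exact hy
      · exact hw₁
    exact (Ideal.IsPrime.mem_or_mem ‹𝔭₁.IsPrime› this).resolve_left (fun h => ht (h1.le h))
  have hyn : y ∉ 𝔭₂ := by
    intro hy2
    apply h2.not_ge
    intro z hz
    obtain ⟨t, ht, htz⟩ := hm z hz
    have : t * z ∈ 𝔭₂ := by
      refine (Ideal.span_le.2 ?_) htz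
      rintro a (rfl | rfl | rfl)
      · exact hx
      · exact hy2
      · exact hw₂
    exact (Ideal.IsPrime.mem_or_mem ‹𝔭₂.IsPrime› this).resolve_left (fun h => ht (h2.le h))
  have hxn' : ι x ∉ 𝔭₁.map ι := fun h => hxn ((algebraMap_mem_map_iff h1.le x).1 h)
  have hyn' : ι y ∉ 𝔭₂.map ι := fun h => hyn ((algebraMap_mem_map_iff h2.le y).1 h)
  refine Or.inl ⟨ι x, ι y, ?_, ?_, ?_, ?_, ?_⟩
  · rw [hM]; exact Ideal.subset_span (by simp)
  · rw [hM]; exact Ideal.subset_span (by simp)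
  · exact Gen2.of_span hM (exists_sub_mem_maximalIdeal ϖ hdvr hϖ0 hw𝔪 hres)
  · exact TrueNode.of_primes hP1 hP2 hredL hxn' hyn'
  · exact dvd_mul_of_primes (p₁ := 𝔭₁.map ι) (p₂ := 𝔭₂.map ι) (Ideal.mem_map_of_mem _ hx)
      (Ideal.mem_map_of_mem _ hy) hredL

/-- **POINT-CHART, smooth point.**  `PointKind` from the conclusion of
`H168.exists_smooth_gen`. -/
theorem pointKind_of_smooth (ϖ : R) (hdvr : DvrLike ϖ) (hϖ0 : ϖ ≠ 0)
    (hw𝔪 : algebraMap R B ϖ ∈ 𝔪) (hres : ∀ b : B, ∃ r : R, b - algebraMap R B r ∈ 𝔪)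
    {s : B} (hs : s ∈ 𝔪)
    (hm : ∀ z ∈ 𝔪, ∃ t, t ∉ 𝔪 ∧ t * z ∈ Ideal.span {s, algebraMap R B ϖ}) :
    PointKind (locMap B 𝔪) ϖ := by
  set ι := algebraMap B (locAt F 𝔪) with hι
  have hM : IsLocalRing.maximalIdeal (locAt F 𝔪) = Ideal.span {ι s, ι s, locMap B 𝔪 ϖ} := by
    rw [← IsLocalization.AtPrime.map_eq_maximalIdeal 𝔪 (locAt F 𝔪),
      map_eq_span_of_locally (T := {s, algebraMap R B ϖ}) ?_ hm]
    · congr 1
      simp only [Set.image_insert_eq, Set.image_singleton, Set.insert_eq_of_mem,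
        Set.mem_insert_iff, true_or]
      rfl
    · rintro z (rfl | rfl)
      · exact hs
      · exact hw𝔪
  refine Or.inr ⟨ι s, ?_, ?_⟩
  · rw [hM]; exact Ideal.subset_span (by simp)
  · exact Gen2.of_span hM (exists_sub_mem_maximalIdeal ϖ hdvr hϖ0 hw𝔪 hres)

end PointChart

end Fermat.Agent.A2.H673
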